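/-
PROGRAMME III (S48, Deligne–Serre), kernel DS1 (helper22), field-theoretic layer (referee note A3).

Automorphisms of `ℂ` over a subfield:

* `exists_algEquiv_ne` : for a field `F` of characteristic zero with `Algebra F ℂ`, every complex
  number outside the image of `F` is moved by an `F`-automorphism of `ℂ`;
* `exists_ringEquiv_fix_ne` : the same for a `Subfield ℂ`;
* `exists_ringEquiv_extends` : every embedding into `ℂ` of a subfield of `ℂ` algebraic over `ℚ`
  extends to an automorphism of `ℂ`;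
* `isAlgebraic_of_finite_orbit` : a complex number with finite `Aut(ℂ)`-orbit is algebraic;
* `finiteDimensional_adjoin_of_card_le` : if at most `B` automorphisms of `ℂ` can be pairwise
  distinguished on `S`, then `ℚ(S)` is finite over `ℚ`.
-/
import Mathlib
import Fermat.Agent.S23.AutC

set_option autoImplicit false

namespace Fermat.Agent.DS.DS1

open MvPolynomial Fermat.Agent.S23

section General

variable {F : Type*} [Field F] [Algebra F ℂ]

/-- For a complex number `z` transcendental over `F` there is an `F`-automorphism of `ℂ` mapping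
`z` to `z + 1`. -/
theorem exists_algEquiv_add_one_of_transcendental {z : ℂ} (hz : Transcendental F z) :
    ∃ σ : ℂ ≃ₐ[F] ℂ, σ z = z + 1 := by
  classical
  have hs : AlgebraicIndepOn F id ({z} : Set ℂ) := by
    have : AlgebraicIndependent F (fun x : ({z} : Set ℂ) => (x : ℂ)) := by
      rw [algebraicIndependent_singleton_iff (⟨z, rfl⟩ : ({z} : Set ℂ))]
      exact hz
    exact this
  obtain ⟨t, hzt, ht⟩ := exists_isTranscendenceBasis_superset hs
  let i₀ : t := ⟨z, hzt rfl⟩
  obtain ⟨σ, hσ⟩ := exists_ringEquiv_of_mvPolynomial_ringEquiv ht (shiftEquiv F i₀).toRingEquiv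
  have hfix : ∀ c : F, σ (algebraMap F ℂ c) = algebraMap F ℂ c := by
    intro c
    have h1 := hσ (C c)
    rw [aeval_C] at h1
    have h2 : (shiftEquiv F i₀).toRingEquiv (C c) = C c := by
      show (shiftEquiv F i₀) (C c) = C c
      exact (shiftEquiv F i₀).commutes c
    rw [h2, aeval_C] at h1
    exact h1
  refine ⟨AlgEquiv.ofRingEquiv (f := σ) hfix, ?_⟩
  show σ z = z + 1
  have h1 := hσ (X i₀)
  rw [aeval_X] at h1
  have h2 : (shiftEquiv F i₀).toRingEquiv (X i₀) = X i₀ + 1 := shiftEquiv_X F i₀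
  rw [h2, map_add, aeval_X, map_one] at h1
  exact h1

/-- A complex number transcendental over `F` is moved by an `F`-automorphism of `ℂ`. -/
theorem exists_algEquiv_ne_of_transcendental {z : ℂ} (hz : Transcendental F z) :
    ∃ σ : ℂ ≃ₐ[F] ℂ, σ z ≠ z := by
  obtain ⟨σ, hσ⟩ := exists_algEquiv_add_one_of_transcendental hz
  refine ⟨σ, ?_⟩
  rw [hσ]
  intro h
  have : (1 : ℂ) = 0 := by linear_combination h
  exact one_ne_zero this

/-- A complex number algebraic over `F` (of characteristic zero) and not in the image of `F` is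
moved by an `F`-automorphism of `ℂ`. -/
theorem exists_algEquiv_ne_of_isAlgebraic [CharZero F] {z : ℂ} (hz : IsAlgebraic F z)
    (hzF : z ∉ Set.range (algebraMap F ℂ)) : ∃ σ : ℂ ≃ₐ[F] ℂ, σ z ≠ z := by
  classical
  let E : IntermediateField F ℂ := algebraicClosure F ℂ
  have hGal : IsGalois F E := by
    have key : ∀ a : Algebra F E, a = (algebraicClosure F ℂ).algebra' →
        @IsGalois F _ E _ a := by
      intro a ha
      subst ha
      have : IsAlgClosure F (algebraicClosure F ℂ) := algebraicClosure.isAlgClosure F ℂ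
      exact IsAlgClosure.isGalois F (algebraicClosure F ℂ)
    exact key _ rfl
  have hzE : z ∈ E := (mem_algebraicClosure_iff).mpr hz
  let z' : E := ⟨z, hzE⟩
  have hz' : z' ∉ (⊥ : IntermediateField F E) := by
    intro h
    obtain ⟨q, hq⟩ := IntermediateField.mem_bot.mp h
    apply hzF
    refine ⟨q, ?_⟩
    have := congrArg (fun x : E => (x : ℂ)) hq
    simpa using this
  rw [InfiniteGalois.mem_bot_iff_fixed] at hz'
  push Not at hz'
  obtain ⟨τ, hτ⟩ := hz'
  obtain ⟨ι, v, hv⟩ := exists_isTranscendenceBasis' E ℂ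
  obtain ⟨σ, hσ⟩ := exists_ringEquiv_of_mvPolynomial_ringEquiv hv
    (MvPolynomial.mapEquiv ι τ.toRingEquiv)
  have hmap : ∀ e : E, σ (e : ℂ) = (τ e : ℂ) := by
    intro e
    have h1 := hσ (C e)
    rw [aeval_C] at h1
    have h2 : (MvPolynomial.mapEquiv ι τ.toRingEquiv) (C e) = C (τ e) := by
      simp
    rw [h2, aeval_C] at h1
    exact h1
  have hfix : ∀ c : F, σ (algebraMap F ℂ c) = algebraMap F ℂ c := by
    intro c
    have h1 := hmap (algebraMap F E c)
    rw [τ.commutes] at h1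
    exact h1
  refine ⟨AlgEquiv.ofRingEquiv (f := σ) hfix, ?_⟩
  show σ z ≠ z
  have h1 := hmap z'
  have h3 : (z' : ℂ) = z := rfl
  rw [h3] at h1
  rw [h1]
  intro h
  apply hτ
  apply Subtype.ext
  exact h

/-- Every complex number outside the image of a field `F` of characteristic zero is moved by an
`F`-automorphism of `ℂ`. -/
theorem exists_algEquiv_ne [CharZero F] (z : ℂ) (hz : z ∉ Set.range (algebraMap F ℂ)) :
    ∃ σ : ℂ ≃ₐ[F] ℂ, σ z ≠ z := by
  by_cases h : IsAlgebraic F z
  · exact exists_algEquiv_ne_of_isAlgebraic h hz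
  · exact exists_algEquiv_ne_of_transcendental h

end General

/-- Every complex number outside a subfield `K` is moved by an automorphism of `ℂ` fixing `K`
pointwise. -/
theorem exists_ringEquiv_fix_ne (K : Subfield ℂ) (z : ℂ) (hz : z ∉ K) :
    ∃ σ : ℂ ≃+* ℂ, (∀ x ∈ K, σ x = x) ∧ σ z ≠ z := by
  let _ : Algebra K ℂ := K.subtype.toAlgebra
  have hz' : z ∉ Set.range (algebraMap K ℂ) := by
    rintro ⟨x, rfl⟩
    exact hz x.2
  obtain ⟨σ, hσ⟩ := exists_algEquiv_ne (F := K) z hz'
  exact ⟨σ.toRingEquiv, fun x hx => σ.commutes ⟨x, hx⟩, hσ⟩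

/-- Every embedding into `ℂ` of a subfield of `ℂ` algebraic over `ℚ` extends to an automorphism
of `ℂ`. -/
theorem exists_ringEquiv_extends (K : IntermediateField ℚ ℂ) (hK : Algebra.IsAlgebraic ℚ K)
    (φ : K →+* ℂ) : ∃ σ : ℂ ≃+* ℂ, ∀ x : K, σ x = φ x := by
  classical
  let S : Set ℂ := {x | IsAlgebraic ℚ x}
  let A : IntermediateField ℚ ℂ := IntermediateField.adjoin ℚ S
  have hSint : ∀ s ∈ S, IsIntegral ℚ s ∧ ((minpoly ℚ s).map (algebraMap ℚ ℂ)).Splits :=
    fun s hs => ⟨hs.isIntegral, IsAlgClosed.splits _⟩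
  have hA : Algebra.IsAlgebraic ℚ A :=
    IntermediateField.isAlgebraic_adjoin fun s hs => (hSint s hs).1
  have hKA : K ≤ A := by
    intro x hx
    apply IntermediateField.subset_adjoin ℚ S
    have h1 : IsAlgebraic ℚ (⟨x, hx⟩ : K) := hK.isAlgebraic _
    have h2 : IsAlgebraic ℚ (algebraMap K ℂ ⟨x, hx⟩) := h1.algebraMap
    exact h2
  let f : K →ₐ[ℚ] ℂ := φ.toRatAlgHom
  obtain ⟨φ', hφ'⟩ := IntermediateField.exists_algHom_adjoin_of_splits hSint f hKA
  have hrange : ∀ a : A, φ' a ∈ A.toSubalgebra := by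
    intro a
    apply IntermediateField.subset_adjoin ℚ S
    have h1 : IsAlgebraic ℚ a := hA.isAlgebraic a
    exact h1.algHom φ'
  let ψ₀ : A →ₐ[ℚ] A := φ'.codRestrict A.toSubalgebra hrange
  have hbij : Function.Bijective ψ₀ := Algebra.IsAlgebraic.algHom_bijective ψ₀
  let ψ : A ≃ₐ[ℚ] A := AlgEquiv.ofBijective ψ₀ hbij
  obtain ⟨ι, v, hv⟩ := exists_isTranscendenceBasis' A ℂ
  obtain ⟨σ, hσ⟩ := exists_ringEquiv_of_mvPolynomial_ringEquiv hv
    (MvPolynomial.mapEquiv ι ψ.toRingEquiv)
  refine ⟨σ, fun x => ?_⟩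
  have h1 := hσ (C (IntermediateField.inclusion hKA x))
  rw [aeval_C] at h1
  have h2 : (MvPolynomial.mapEquiv ι ψ.toRingEquiv) (C (IntermediateField.inclusion hKA x)) =
      C (ψ (IntermediateField.inclusion hKA x)) := by
    simp
  rw [h2, aeval_C] at h1
  have h3 : algebraMap A ℂ (IntermediateField.inclusion hKA x) = (x : ℂ) := rfl
  rw [h3] at h1
  rw [h1]
  have h4 : algebraMap A ℂ (ψ (IntermediateField.inclusion hKA x)) =
      φ' (IntermediateField.inclusion hKA x) := rfl
  rw [h4]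
  have h5 : (φ'.comp (IntermediateField.inclusion hKA)) x = f x := congrArg (fun g => g x) hφ'
  exact h5

/-- The powers of an automorphism `σ` with `σ z = z + 1`. -/
theorem pow_apply_of_add_one (σ : ℂ ≃ₐ[ℚ] ℂ) {z : ℂ} (hσ : σ z = z + 1) (n : ℕ) :
    (σ ^ n) z = z + n := by
  induction n with
  | zero => simp
  | succ n ih =>
    rw [pow_succ', AlgEquiv.mul_apply, ih, map_add, hσ, map_natCast]
    push_cast
    ring

/-- A complex number with finite orbit under the ring automorphisms of `ℂ` is algebraic. -/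
theorem isAlgebraic_of_finite_orbit (z : ℂ)
    (h : (Set.range fun σ : ℂ ≃+* ℂ => σ z).Finite) : IsAlgebraic ℚ z := by
  by_contra hz
  obtain ⟨σ, hσ⟩ := exists_algEquiv_add_one_of_transcendental (F := ℚ) hz
  apply h.not_infinite
  apply Set.infinite_of_injective_forall_mem (f := fun n : ℕ => z + n)
  · intro m n hmn
    have : (m : ℂ) = n := add_left_cancel hmn
    exact_mod_cast this
  · intro n
    exact ⟨(σ ^ n).toRingEquiv, pow_apply_of_add_one σ hσ n⟩

section Bounded

variable {S : Set ℂ} {B : ℕ}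

/-- A family of automorphisms which are pairwise distinguished on `S` has at most `B` members. -/
theorem card_le_of_distinguished
    (h : ∀ T : Finset (ℂ ≃+* ℂ), (∀ σ ∈ T, ∀ τ ∈ T, σ ≠ τ → ∃ x ∈ S, σ x ≠ τ x) → T.card ≤ B)
    {J : Type*} (s : Finset J) (g : J → (ℂ ≃+* ℂ))
    (hg : ∀ i ∈ s, ∀ j ∈ s, i ≠ j → ∃ x ∈ S, g i x ≠ g j x) : s.card ≤ B := by
  classical
  have hinj : Set.InjOn g s := by
    intro i hi j hj hij
    by_contra hne
    obtain ⟨x, -, hx⟩ := hg i hi j hj hne
    exact hx (by rw [hij])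
  rw [← Finset.card_image_of_injOn hinj]
  apply h
  intro σ hσ τ hτ hne
  obtain ⟨i, hi, rfl⟩ := Finset.mem_image.mp hσ
  obtain ⟨j, hj, rfl⟩ := Finset.mem_image.mp hτ
  exact hg i hi j hj (fun hij => hne (by rw [hij]))

/-- Under the boundedness hypothesis every element of `S` is algebraic. -/
theorem isAlgebraic_of_card_le
    (h : ∀ T : Finset (ℂ ≃+* ℂ), (∀ σ ∈ T, ∀ τ ∈ T, σ ≠ τ → ∃ x ∈ S, σ x ≠ τ x) → T.card ≤ B)
    {x : ℂ} (hx : x ∈ S) : IsAlgebraic ℚ x := by
  by_contra hz
  obtain ⟨σ, hσ⟩ := exists_algEquiv_add_one_of_transcendental (F := ℚ) hz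
  have := card_le_of_distinguished h (Finset.range (B + 1)) (fun n => (σ ^ n).toRingEquiv) (by
    intro i _ j _ hij
    refine ⟨x, hx, ?_⟩
    show (σ ^ i) x ≠ (σ ^ j) x
    rw [pow_apply_of_add_one σ hσ, pow_apply_of_add_one σ hσ]
    intro h'
    have : (i : ℂ) = j := add_left_cancel h'
    exact hij (by exact_mod_cast this))
  rw [Finset.card_range] at this
  omega

/-- Two automorphisms of `ℂ` which agree on `S` agree on `ℚ(S)`. -/
theorem eq_on_adjoin {σ τ : ℂ ≃+* ℂ} (h : ∀ x ∈ S, σ x = τ x) {y : ℂ}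
    (hy : y ∈ IntermediateField.adjoin ℚ S) : σ y = τ y := by
  induction hy using IntermediateField.adjoin_induction with
  | mem x hx => exact h x hx
  | algebraMap q => rw [eq_ratCast (algebraMap ℚ ℂ) q, map_ratCast, map_ratCast]
  | add x y _ _ hx hy => rw [map_add, map_add, hx, hy]
  | inv x _ hx => rw [map_inv₀, map_inv₀, hx]
  | mul x y _ _ hx hy => rw [map_mul, map_mul, hx, hy]

/-- If at most `B` automorphisms of `ℂ` can be pairwise distinguished on `S`, every
finite-dimensional subfield of `ℚ(S)` has degree at most `B`. -/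
theorem finrank_le_of_card_le
    (h : ∀ T : Finset (ℂ ≃+* ℂ), (∀ σ ∈ T, ∀ τ ∈ T, σ ≠ τ → ∃ x ∈ S, σ x ≠ τ x) → T.card ≤ B)
    (K : IntermediateField ℚ ℂ) [FiniteDimensional ℚ K] (hK : K ≤ IntermediateField.adjoin ℚ S) :
    Module.finrank ℚ K ≤ B := by
  classical
  have hnf : NumberField K := ⟨⟩
  have hKalg : Algebra.IsAlgebraic ℚ K := Algebra.IsAlgebraic.of_finite ℚ K
  have hext : ∀ φ : K →+* ℂ, ∃ σ : ℂ ≃+* ℂ, ∀ x : K, σ x = φ x :=
    fun φ => exists_ringEquiv_extends K hKalg φ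
  choose g hg using hext
  rw [← NumberField.Embeddings.card K ℂ, ← Finset.card_univ]
  apply card_le_of_distinguished h Finset.univ g
  intro φ _ ψ _ hne
  by_contra hcon
  push Not at hcon
  apply hne
  ext x
  rw [← hg φ x, ← hg ψ x]
  exact eq_on_adjoin hcon (hK x.2)

/-- If at most `B` automorphisms of `ℂ` can be pairwise distinguished on `S`, then `ℚ(S)` is a
finite extension of `ℚ`. -/
theorem finiteDimensional_adjoin_of_card_le (S : Set ℂ) (B : ℕ)
    (h : ∀ T : Finset (ℂ ≃+* ℂ), (∀ σ ∈ T, ∀ τ ∈ T, σ ≠ τ → ∃ x ∈ S, σ x ≠ τ x) → T.card ≤ B) :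
    FiniteDimensional ℚ (IntermediateField.adjoin ℚ S) := by
  have halg : Algebra.IsAlgebraic ℚ (IntermediateField.adjoin ℚ S) :=
    IntermediateField.isAlgebraic_adjoin fun x hx => (isAlgebraic_of_card_le h hx).isIntegral
  by_contra hnfd
  obtain ⟨L, hfin, hL⟩ := IntermediateField.exists_lt_finrank_of_infinite_dimensional hnfd B
  have e := (IntermediateField.liftAlgEquiv L).toLinearEquiv
  have : FiniteDimensional ℚ (IntermediateField.lift L) := e.finiteDimensional
  have h1 := finrank_le_of_card_le h (IntermediateField.lift L) (IntermediateField.lift_le L)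
  rw [← e.finrank_eq] at h1
  omega

/-- Quantitative version: `[ℚ(S) : ℚ] ≤ B`. -/
theorem finrank_adjoin_le_of_card_le (S : Set ℂ) (B : ℕ)
    (h : ∀ T : Finset (ℂ ≃+* ℂ), (∀ σ ∈ T, ∀ τ ∈ T, σ ≠ τ → ∃ x ∈ S, σ x ≠ τ x) → T.card ≤ B) :
    Module.finrank ℚ (IntermediateField.adjoin ℚ S) ≤ B := by
  have := finiteDimensional_adjoin_of_card_le S B h
  exact finrank_le_of_card_le h _ le_rfl

end Bounded

end Fermat.Agent.DS.DS1
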