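import Mathlib
import Fermat.Agent.S22
import Fermat.Agent.S23.Denominators

/-!
# DS1, piece FG-1: the `q`-coefficients of a cusp form on `Γ₀(N)` lie in a f.g. `ℤ`-module

For every weight `k ≥ 1` and every `F : CuspForm (Gamma0 N) k` there is a finitely generated
`ℤ`-submodule `P ⊆ ℂ` containing all `q`-expansion coefficients of `F`.

Proof: the Hecke algebra `𝕋 = heckeAlgebra N k ∅` is a finitely generated `ℤ`-module (statement
`S22`, on main, every weight); for every `n ≥ 1` there is `t_n ∈ 𝕋` with `a_n(g) = a_1(t_n g)` for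
all `g` (weight-`k` copy of `S23.den_exists_hecke`); so all `a_n(F)` lie in the image of `𝕋` under
the additive map `t ↦ a_1(t F)`.  No rationality hypothesis on `F`.
-/

set_option autoImplicit false

namespace Fermat.Agent.DS.DS1

open UpperHalfPlane Function CongruenceSubgroup ModularFormClass
open scoped MatrixGroups ModularForm Manifold
open Fermat.Agent.S23

variable {N : ℕ}

/-- Every `q`-coefficient functional `a_n` (`n ≥ 1`) is `a_1 ∘ t` for some Hecke operator `t`,
in every weight `k ≥ 1`. -/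
theorem fg_exists_hecke [NeZero N] (k : ℤ) (hk : 1 ≤ k) (n : ℕ) (hn : 0 < n) :
    ∃ t ∈ CuspForm.heckeAlgebra N k ∅, ∀ g : CuspForm (Gamma0 N) k,
      qCoeff ⇑g n = qCoeff ⇑(t g) 1 := by
  obtain ⟨e, he⟩ : ∃ e : ℕ, k - 1 = (e : ℤ) := ⟨(k - 1).toNat, by omega⟩
  induction n using Nat.strong_induction_on with
  | _ n ih =>
    rcases Nat.lt_or_ge 1 n with h1 | h1
    swap
    · obtain rfl : n = 1 := le_antisymm h1 hn
      exact ⟨1, Subalgebra.one_mem _, fun g => rfl⟩
    obtain ⟨p, hp, hpn⟩ := Nat.exists_prime_and_dvd (show n ≠ 1 by omega)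
    obtain ⟨m, rfl⟩ := hpn
    have hm : 0 < m := Nat.pos_of_ne_zero (by rintro rfl; simp at hn)
    have hmlt : m < p * m := by
      have := hp.two_le
      nlinarith
    obtain ⟨tm, htm, htm'⟩ := ih m hmlt hm
    by_cases hpN : p ∣ N
    · -- `U_p`
      refine ⟨tm * CuspForm.heckeULin k hpN, Subalgebra.mul_mem _ htm
        (CuspForm.heckeULin_mem_heckeAlgebra hp hpN (Set.notMem_empty p)), fun g => ?_⟩
      rw [Module.End.mul_apply, ← htm', den_qCoeff_heckeULin hp hpN,
        ModularForm.coeffHeckeU_apply, mul_comm]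
    · -- `T_p`
      by_cases hpm : p ∣ m
      · obtain ⟨r, rfl⟩ := hpm
        have hr : 0 < r := Nat.pos_of_ne_zero (by rintro rfl; simp at hm)
        have hrlt : r < p * (p * r) := by
          have := hp.two_le
          nlinarith
        obtain ⟨tr, htr, htr'⟩ := ih r hrlt hr
        refine ⟨tm * CuspForm.heckeTLin k hp hpN - ((p : ℤ) ^ e) • tr,
          Subalgebra.sub_mem _ (Subalgebra.mul_mem _ htm
            (CuspForm.heckeTLin_mem_heckeAlgebra hp hpN (Set.notMem_empty p)))
            (Subalgebra.zsmul_mem _ htr _), fun g => ?_⟩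
        rw [LinearMap.sub_apply, den_qCoeff_sub, Module.End.mul_apply, ← htm',
          den_qCoeff_heckeTLin hp hpN,
          ModularForm.coeffHeckeT_of_dvd k (Dvd.intro r rfl), LinearMap.smul_apply,
          den_qCoeff_zsmul, ← htr', Nat.mul_div_cancel_left r hp.pos,
          mul_comm (p * r) p, he]
        push_cast
        rw [zpow_natCast]
        ring
      · refine ⟨tm * CuspForm.heckeTLin k hp hpN, Subalgebra.mul_mem _ htm
          (CuspForm.heckeTLin_mem_heckeAlgebra hp hpN (Set.notMem_empty p)), fun g => ?_⟩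
        rw [Module.End.mul_apply, ← htm', den_qCoeff_heckeTLin hp hpN,
          ModularForm.coeffHeckeT_of_not_dvd k hpm, mul_comm]

/-- **FG-1.** The `q`-coefficients of a cusp form of weight `k ≥ 1` on `Γ₀(N)` lie in a finitely
generated `ℤ`-submodule of `ℂ`. -/
theorem exists_fg_coeffs_Gamma0 (N : ℕ) [NeZero N] (k : ℤ) (hk : 1 ≤ k)
    (F : CuspForm (Gamma0 N) k) :
    ∃ P : Submodule ℤ ℂ, P.FG ∧ ∀ n, qCoeff ⇑F n ∈ P := by
  have hfin : Module.Finite ℤ (CuspForm.heckeAlgebra N k ∅) := Fermat.Agent.S22.result N k ∅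
  -- the additive map `t ↦ a_1(t F)`
  let φ : CuspForm.heckeAlgebra N k ∅ →+ ℂ :=
    { toFun := fun t => qCoeff ⇑((t : Module.End ℂ (CuspForm (Gamma0 N) k)) F) 1
      map_zero' := by
        show qCoeff ⇑((0 : Module.End ℂ (CuspForm (Gamma0 N) k)) F) 1 = 0
        rw [LinearMap.zero_apply, den_qCoeff_zero_fun]
      map_add' := fun s t => by
        show qCoeff ⇑(((s : Module.End ℂ (CuspForm (Gamma0 N) k)) + t) F) 1 = _
        rw [LinearMap.add_apply, den_qCoeff_add] }
  let M : Submodule ℤ ℂ := LinearMap.range φ.toIntLinearMap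
  have hM : M.FG := by
    have : Module.Finite ℤ M := Module.Finite.range φ.toIntLinearMap
    exact Module.Finite.iff_fg.mp this
  refine ⟨M, hM, fun n => ?_⟩
  rcases Nat.eq_zero_or_pos n with rfl | hn
  · have : qCoeff ⇑F 0 = 0 := den_qCoeff_zero F
    rw [this]
    exact M.zero_mem
  · obtain ⟨t, ht, ht'⟩ := fg_exists_hecke (N := N) k hk n hn
    exact ⟨⟨t, ht⟩, (ht' F).symm⟩

end Fermat.Agent.DS.DS1
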