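import Mathlib
import Fermat.Agent.DS.DS1.FGGamma0
import Fermat.Agent.S23.Basic

/-!
# DS1, piece FG-2: bridge from weight one on `Γ₁(N)` to weight four on `Γ₀(N)`

Let `h : CuspForm (Gamma1 N) 1` and `G : ModularForm (Gamma1 N) 3` be such that the product `h * G`
is invariant under `Γ₀(N)` in weight `4` (e.g. `h` has nebentypus `ε` and `G` has nebentypus `ε⁻¹`).
If the `q`-expansion of `G` is `q + …` with all coefficients in a finitely generated `ℤ`-submodule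
`S ⊆ ℂ` which is closed under multiplication and contains `1` (e.g. `S = ℤ[ζ]`), then all
`q`-coefficients of `h` lie in a finitely generated `ℤ`-submodule of `ℂ`.

Proof: `h * G ∈ S₄(Γ₀(N))`, so FG-1 (`exists_fg_coeffs_Gamma0`, from `S22` on main) gives a f.g.
`P` containing the coefficients of `h * G`; then divide the power series by `qExpansion G = q·unit`:
the coefficients of `h` lie in `S * P`.
-/

set_option autoImplicit false

namespace Fermat.Agent.DS.DS1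

open UpperHalfPlane Function CongruenceSubgroup ModularFormClass
open scoped MatrixGroups ModularForm Manifold
open Fermat.Agent.S23

/-! ### Formal division by `q · unit` -/

section Formal

open PowerSeries Finset

/-- If `a * g = F`, `g = q + …` has coefficients in a multiplicatively closed `ℤ`-submodule `S ∋ 1`
and `F` has coefficients in `P`, then `a` has coefficients in `S * P`. -/
theorem coeff_mem_mul_of_mul_eq {S P : Submodule ℤ ℂ} (hS1 : (1 : ℂ) ∈ S)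
    (hSmul : ∀ x ∈ S, ∀ y ∈ S, x * y ∈ S) (a g F : PowerSeries ℂ) (hagF : a * g = F)
    (hg0 : coeff 0 g = 0) (hg1 : coeff 1 g = 1) (hgS : ∀ n, coeff n g ∈ S)
    (hF : ∀ n, coeff n F ∈ P) : ∀ n, coeff n a ∈ S * P := by
  have hPQ : ∀ x ∈ P, x ∈ S * P := fun x hx => by
    have := Submodule.mul_mem_mul hS1 hx
    rwa [one_mul] at this
  have hSQ : ∀ s ∈ S, ∀ x ∈ S * P, x * s ∈ S * P := by
    intro s hs x hx
    have h1 : s * x ∈ S * (S * P) := Submodule.mul_mem_mul hs hx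
    rw [← mul_assoc] at h1
    have hSS : S * S ≤ S := Submodule.mul_le.mpr hSmul
    rw [mul_comm x s]
    exact mul_le_mul_left hSS P h1
  intro n
  induction n using Nat.strong_induction_on with
  | _ n ih =>
    have hmem : (n, 1) ∈ antidiagonal (n + 1) := by simp
    have hc : coeff (n + 1) F =
        coeff n a * coeff 1 g +
          ∑ p ∈ (antidiagonal (n + 1)).erase (n, 1), coeff p.1 a * coeff p.2 g := by
      rw [← hagF, coeff_mul, ← Finset.add_sum_erase _ _ hmem]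
    rw [hg1, mul_one] at hc
    have hrest : ∑ p ∈ (antidiagonal (n + 1)).erase (n, 1), coeff p.1 a * coeff p.2 g ∈ S * P := by
      refine Submodule.sum_mem _ fun p hp => ?_
      obtain ⟨hne, hp'⟩ := Finset.mem_erase.mp hp
      have hsum : p.1 + p.2 = n + 1 := mem_antidiagonal.mp hp'
      rcases Nat.lt_or_ge p.1 n with hlt | hge
      · exact hSQ _ (hgS _) _ (ih _ hlt)
      · -- `p.1 ≥ n`, `p ≠ (n, 1)`: then `p = (n + 1, 0)`
        have hp1 : p.1 = n + 1 := by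
          rcases Nat.eq_or_lt_of_le hge with heq | hgt
          · exfalso
            apply hne
            ext
            · exact heq.symm
            · simp only
              omega
          · omega
        have hp2 : p.2 = 0 := by omega
        rw [hp2, hg0, mul_zero]
        exact Submodule.zero_mem _
    have : coeff n a = coeff (n + 1) F -
        ∑ p ∈ (antidiagonal (n + 1)).erase (n, 1), coeff p.1 a * coeff p.2 g := by
      rw [hc]; ring
    rw [this]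
    exact Submodule.sub_mem _ (hPQ _ (hF _)) hrest

end Formal

/-! ### `Γ₁(N)` has `1` as a strict period -/

theorem fg_one_mem_strictPeriods_Gamma1 (N : ℕ) :
    (1 : ℝ) ∈ (Subgroup.map (Matrix.SpecialLinearGroup.mapGL ℝ) (Gamma1 N)).strictPeriods := by
  have hT : ModularGroup.T ∈ Gamma1 N := by
    rw [CongruenceSubgroup.Gamma1_mem]
    simp [ModularGroup.T]
  have h := Subgroup.strictPeriods_eq_zmultiples_one_of_T_mem hT
  rw [h]
  exact AddSubgroup.mem_zmultiples (1 : ℝ)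

theorem isNice_of_Gamma1 {N : ℕ} [NeZero N] {k : ℤ} {F : Type*} [FunLike F ℍ ℂ]
    [ModularFormClass F (Subgroup.map (Matrix.SpecialLinearGroup.mapGL ℝ) (Gamma1 N)) k] (f : F) :
    IsNice (f : ℍ → ℂ) :=
  isNice_of_modularForm (fg_one_mem_strictPeriods_Gamma1 N) f

/-! ### The product as a cusp form of weight `4` on `Γ₀(N)` -/

variable {N : ℕ} [NeZero N]

/-- The product of a weight-one cusp form and a weight-three modular form on `Γ₁(N)`, as a cusp form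
of weight `4` on `Γ₀(N)`, when the product is `Γ₀(N)`-invariant. -/
noncomputable def prodCusp (h : CuspForm (Gamma1 N) 1) (G : ModularForm (Gamma1 N) 3)
    (hinv : ∀ γ ∈ Gamma0 N, ((⇑h : ℍ → ℂ) * ⇑G) ∣[(4 : ℤ)] γ = (⇑h : ℍ → ℂ) * ⇑G) :
    CuspForm (Gamma0 N) 4 where
  toFun := (⇑h : ℍ → ℂ) * ⇑G
  slash_action_eq' := by
    rintro _ ⟨γ, hγ, rfl⟩
    have := hinv γ hγ
    rwa [ModularForm.SL_slash] at this
  holo' := (CuspFormClass.holo h).mul (ModularFormClass.holo G)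
  zero_at_cusps' := by
    intro c hc
    rw [Subgroup.IsArithmetic.isCusp_iff_isCusp_SL2Z] at hc
    rw [OnePoint.isZeroAt_iff_forall_SL2Z hc]
    intro γ _
    have h4 : (4 : ℤ) = 1 + 3 := by norm_num
    rw [h4, ModularForm.mul_slash_SL2]
    exact (CuspFormClass.zero_at_infty_slash h γ).mul_boundedAtFilter
      (ModularFormClass.bdd_at_infty_slash G γ)

@[simp] theorem coe_prodCusp (h : CuspForm (Gamma1 N) 1) (G : ModularForm (Gamma1 N) 3)
    (hinv : ∀ γ ∈ Gamma0 N, ((⇑h : ℍ → ℂ) * ⇑G) ∣[(4 : ℤ)] γ = (⇑h : ℍ → ℂ) * ⇑G) :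
    (⇑(prodCusp h G hinv) : ℍ → ℂ) = (⇑h : ℍ → ℂ) * ⇑G := rfl

/-- **FG-2.** Bridge: a weight-one cusp form on `Γ₁(N)` with a weight-three multiplier `G = q + …`
(coefficients in a f.g. multiplicatively closed `S ∋ 1`) such that `h * G` is `Γ₀(N)`-invariant has
all its `q`-coefficients in a finitely generated `ℤ`-submodule of `ℂ`. -/
theorem exists_fg_coeffs_of_multiplier (h : CuspForm (Gamma1 N) 1) (G : ModularForm (Gamma1 N) 3)
    (hinv : ∀ γ ∈ Gamma0 N, ((⇑h : ℍ → ℂ) * ⇑G) ∣[(4 : ℤ)] γ = (⇑h : ℍ → ℂ) * ⇑G)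
    (S : Submodule ℤ ℂ) (hS : S.FG) (hS1 : (1 : ℂ) ∈ S) (hSmul : ∀ x ∈ S, ∀ y ∈ S, x * y ∈ S)
    (hG0 : qCoeff ⇑G 0 = 0) (hG1 : qCoeff ⇑G 1 = 1) (hGS : ∀ n, qCoeff ⇑G n ∈ S) :
    ∃ P : Submodule ℤ ℂ, P.FG ∧ ∀ n, qCoeff ⇑h n ∈ P := by
  obtain ⟨P, hP, hPc⟩ := exists_fg_coeffs_Gamma0 N 4 (by norm_num) (prodCusp h G hinv)
  refine ⟨S * P, hS.mul hP, ?_⟩
  have hmul : qExpansion 1 (⇑h : ℍ → ℂ) * qExpansion 1 (⇑G : ℍ → ℂ) =
      qExpansion 1 (⇑(prodCusp h G hinv) : ℍ → ℂ) := by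
    rw [coe_prodCusp, (isNice_of_Gamma1 h).qExpansion_mul (isNice_of_Gamma1 G)]
  exact coeff_mem_mul_of_mul_eq hS1 hSmul _ _ _ hmul hG0 hG1 hGS hPc

/-- **FG-2, nebentypus form.** If `h ∣[1] γ = c γ • h` and `G ∣[3] γ = (c γ)⁻¹ • G` for `γ ∈ Γ₀(N)`
with `c γ ≠ 0`, the hypothesis of `exists_fg_coeffs_of_multiplier` holds. -/
theorem exists_fg_coeffs_of_nebentypus (h : CuspForm (Gamma1 N) 1) (G : ModularForm (Gamma1 N) 3)
    (c : SL(2, ℤ) → ℂ) (hc : ∀ γ ∈ Gamma0 N, c γ ≠ 0)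
    (hh : ∀ γ ∈ Gamma0 N, (⇑h : ℍ → ℂ) ∣[(1 : ℤ)] γ = c γ • (⇑h : ℍ → ℂ))
    (hG : ∀ γ ∈ Gamma0 N, (⇑G : ℍ → ℂ) ∣[(3 : ℤ)] γ = (c γ)⁻¹ • (⇑G : ℍ → ℂ))
    (S : Submodule ℤ ℂ) (hS : S.FG) (hS1 : (1 : ℂ) ∈ S) (hSmul : ∀ x ∈ S, ∀ y ∈ S, x * y ∈ S)
    (hG0 : qCoeff ⇑G 0 = 0) (hG1 : qCoeff ⇑G 1 = 1) (hGS : ∀ n, qCoeff ⇑G n ∈ S) :
    ∃ P : Submodule ℤ ℂ, P.FG ∧ ∀ n, qCoeff ⇑h n ∈ P := by
  refine exists_fg_coeffs_of_multiplier h G (fun γ hγ => ?_) S hS hS1 hSmul hG0 hG1 hGS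
  have h4 : (4 : ℤ) = 1 + 3 := by norm_num
  rw [h4, ModularForm.mul_slash_SL2, hh γ hγ, hG γ hγ]
  funext z
  simp only [Pi.mul_apply, Pi.smul_apply, smul_eq_mul]
  field_simp [hc γ hγ]

end Fermat.Agent.DS.DS1
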