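import Mathlib
import Fermat.Agent.DS.TateEis.QExp
import Fermat.Agent.DS.DS1.FGBridge

/-!
# DS1, piece FG-3: the weight-three nebentypus multiplier and `HasFGCoeffs` in weight one

For an odd Dirichlet character `ε` mod `N` the form
`G_ε := (2·lipC 3)⁻¹ • ∑_{b ∈ (ℤ/N)ˣ} ε(b)⁻¹ • tateG N 3 b ∈ M₃(Γ₁(N))`
(`tateG` = helper20's Tate–Eisenstein series, `DS/TateEis`) satisfies
`G_ε ∣[3] γ = ε(d_γ)⁻¹ • G_ε` for `γ ∈ Γ₀(N)`, has NO constant term, leading coefficient `1`, and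
`q`-coefficients `∑_{d ∣ n} d² ε(n/d)⁻¹` in the `ℤ`-span of the values of `ε`.

Consequence (with FG-2): every weight-one cusp form on `Γ₁(N)` with nebentypus `ε` has all its
`q`-coefficients in a finitely generated `ℤ`-submodule of `ℂ`.
-/

set_option autoImplicit false

namespace Fermat.Agent.DS.DS1

open UpperHalfPlane Function CongruenceSubgroup ModularFormClass Matrix
open scoped MatrixGroups ModularForm Manifold
open Fermat.Agent.S23 Fermat.Agent.DS.TateEis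

variable {N : ℕ} [NeZero N]

/-- `tateG` in weight `3`. -/
noncomputable def G3 (a : ZMod N) : ModularForm (Gamma1 N) 3 :=
  tateG N (k := (3 : ℤ)) (le_refl _) a

theorem G3_qExpansion {a : ZMod N} (ha : a ≠ 0) :
    qExpansion 1 (⇑(G3 a) : ℍ → ℂ) =
      PowerSeries.C (lipC 3) * (tateP N 3 a).map (Int.castRingHom ℂ) :=
  tateG_qExpansion_of_ne_zero (M := N) (k := 3) (by norm_num) ha

/-- The diamond action on `G3`: for `γ ∈ Γ₀(N)` with lower right entry `≡ u`. -/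
theorem G3_slash {γ : SL(2, ℤ)} (hγ : γ ∈ Gamma0 N) (u : (ZMod N)ˣ)
    (hu : ((γ 1 1 : ℤ) : ZMod N) = (u : ZMod N)) (a : ZMod N) :
    (⇑(G3 a) : ℍ → ℂ) ∣[(3 : ℤ)] γ = ⇑(G3 ((↑u⁻¹ : ZMod N) * a)) := by
  have h10 : ((γ 1 0 : ℤ) : ZMod N) = 0 := Gamma0_mem.mp hγ
  unfold G3
  rw [tateG_slash, coe_tateG, mulVec_e₁]
  congr 1
  ext v
  rw [mem_tateSet, mem_tateSet_e₁]
  have hinv : (γ⁻¹ : SL(2, ℤ)).1 = !![γ.1 1 1, -γ.1 0 1; -γ.1 1 0, γ.1 0 0] := by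
    rw [Matrix.SpecialLinearGroup.coe_inv, Matrix.adjugate_fin_two]
  have e00 : ((γ⁻¹ : SL(2, ℤ)).1 0 0 : ℤ) = γ.1 1 1 := by rw [hinv]; rfl
  have e10 : ((γ⁻¹ : SL(2, ℤ)).1 1 0 : ℤ) = -γ.1 1 0 := by rw [hinv]; rfl
  rw [e00, e10]
  have h10' : ((γ.1 1 0 : ℤ) : ZMod N) = 0 := h10
  have h11' : ((γ.1 1 1 : ℤ) : ZMod N) = (u : ZMod N) := hu
  simp only [dotProduct, Fin.sum_univ_two, Matrix.cons_val_zero, Matrix.cons_val_one,
    Int.cast_neg, h10', h11', neg_zero, mul_zero, add_zero]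
  constructor
  · intro h
    rw [← h, mul_comm (v 0), ← mul_assoc, Units.inv_mul, one_mul]
  · intro h
    rw [h, mul_comm, ← mul_assoc, Units.mul_inv, one_mul]

/-! ### Character sums over the units -/

theorem sum_units_inv_ite (ε : DirichletCharacter ℂ N) (y : ZMod N) :
    ∑ b : (ZMod N)ˣ, (ε (b : ZMod N))⁻¹ * (if y = (b : ZMod N) then (1 : ℂ) else 0) =
      (ε y)⁻¹ := by
  classical
  by_cases hy : IsUnit y
  · obtain ⟨u, rfl⟩ := hy
    rw [Finset.sum_eq_single u]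
    · simp
    · intro b _ hb
      rw [if_neg, mul_zero]
      intro h
      exact hb (Units.ext h.symm)
    · intro h
      exact absurd (Finset.mem_univ u) h
  · rw [MulChar.map_nonunit ε hy, _root_.inv_zero]
    apply Finset.sum_eq_zero
    intro b _
    rw [if_neg, mul_zero]
    intro h
    exact hy (h ▸ b.isUnit)

theorem sum_units_inv_ite_neg (ε : DirichletCharacter ℂ N) (hodd : ε (-1) = -1) (y : ZMod N) :
    ∑ b : (ZMod N)ˣ, (ε (b : ZMod N))⁻¹ * (if y = -(b : ZMod N) then (1 : ℂ) else 0) =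
      -(ε y)⁻¹ := by
  have h1 : ∀ b : (ZMod N)ˣ, (y = -(b : ZMod N)) ↔ (-y = (b : ZMod N)) := by
    intro b
    constructor
    · intro h; rw [h, neg_neg]
    · intro h; rw [← h, neg_neg]
  have h2 : ∑ b : (ZMod N)ˣ, (ε (b : ZMod N))⁻¹ * (if y = -(b : ZMod N) then (1 : ℂ) else 0) =
      ∑ b : (ZMod N)ˣ, (ε (b : ZMod N))⁻¹ * (if -y = (b : ZMod N) then (1 : ℂ) else 0) := by
    refine Finset.sum_congr rfl fun b _ => ?_
    congr 1
    exact if_congr (h1 b) rfl rfl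
  rw [h2, sum_units_inv_ite, show -y = -1 * y by ring, map_mul, hodd]
  rw [mul_inv, inv_neg, inv_one]
  ring

/-! ### The multiplier -/

/-- The weight-three multiplier with nebentypus `ε⁻¹`. -/
noncomputable def multG (ε : DirichletCharacter ℂ N) : ModularForm (Gamma1 N) 3 :=
  (2 * lipC 3)⁻¹ • ∑ b : (ZMod N)ˣ, (ε (b : ZMod N))⁻¹ • G3 (b : ZMod N)

omit [NeZero N] in
theorem coe_finset_sum_modularForm {ι : Type*} (s : Finset ι) (f : ι → ModularForm (Gamma1 N) 3) :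
    (⇑(∑ i ∈ s, f i) : ℍ → ℂ) = ∑ i ∈ s, (⇑(f i) : ℍ → ℂ) := by
  classical
  induction s using Finset.induction_on with
  | empty => simp
  | insert a s ha ih =>
    rw [Finset.sum_insert ha, Finset.sum_insert ha, ← ih]
    rfl

theorem coe_multG (ε : DirichletCharacter ℂ N) :
    (⇑(multG ε) : ℍ → ℂ) =
      (2 * lipC 3)⁻¹ • ∑ b : (ZMod N)ˣ, (ε (b : ZMod N))⁻¹ • (⇑(G3 (b : ZMod N)) : ℍ → ℂ) := by
  unfold multG
  have h1 : (⇑((2 * lipC 3)⁻¹ • ∑ b : (ZMod N)ˣ, (ε (b : ZMod N))⁻¹ • G3 (b : ZMod N)) : ℍ → ℂ) =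
      (2 * lipC 3)⁻¹ • (⇑(∑ b : (ZMod N)ˣ, (ε (b : ZMod N))⁻¹ • G3 (b : ZMod N)) : ℍ → ℂ) := rfl
  rw [h1, coe_finset_sum_modularForm]
  rfl

/-- Nebentypus of the multiplier. -/
theorem multG_slash (ε : DirichletCharacter ℂ N) {γ : SL(2, ℤ)} (hγ : γ ∈ Gamma0 N) :
    (⇑(multG ε) : ℍ → ℂ) ∣[(3 : ℤ)] γ =
      (ε ((γ 1 1 : ℤ) : ZMod N))⁻¹ • (⇑(multG ε) : ℍ → ℂ) := by
  -- the lower right entry is a unit
  have hdet : (γ 0 0 : ℤ) * γ 1 1 - γ 0 1 * γ 1 0 = 1 := by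
    have := γ.2
    rw [Matrix.det_fin_two] at this
    exact this
  have h10 : ((γ 1 0 : ℤ) : ZMod N) = 0 := Gamma0_mem.mp hγ
  have hunit : ((γ 0 0 : ℤ) : ZMod N) * ((γ 1 1 : ℤ) : ZMod N) = 1 := by
    have := congrArg (fun x : ℤ => (x : ZMod N)) hdet
    simp only [Int.cast_sub, Int.cast_mul, Int.cast_one, h10, mul_zero, sub_zero] at this
    exact this
  set u : (ZMod N)ˣ := ⟨((γ 1 1 : ℤ) : ZMod N), ((γ 0 0 : ℤ) : ZMod N),
    by rw [mul_comm]; exact hunit, hunit⟩ with hu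
  have hu' : ((γ 1 1 : ℤ) : ZMod N) = (u : ZMod N) := rfl
  rw [coe_multG, ModularForm.SL_smul_slash, SlashAction.sum_slash]
  have hterm : ∀ b : (ZMod N)ˣ,
      ((ε (b : ZMod N))⁻¹ • (⇑(G3 (b : ZMod N)) : ℍ → ℂ)) ∣[(3 : ℤ)] γ =
        (ε (b : ZMod N))⁻¹ • (⇑(G3 (((u⁻¹ * b : (ZMod N)ˣ) : (ZMod N)ˣ) : ZMod N)) : ℍ → ℂ) := by
    intro b
    rw [ModularForm.SL_smul_slash, G3_slash hγ u hu' (b : ZMod N)]
    simp
  rw [Finset.sum_congr rfl fun b _ => hterm b]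
  -- reindex `b ↦ u⁻¹ * b`
  have hre : ∑ b : (ZMod N)ˣ, (ε (b : ZMod N))⁻¹ •
        (⇑(G3 (((u⁻¹ * b : (ZMod N)ˣ) : (ZMod N)ˣ) : ZMod N)) : ℍ → ℂ) =
      ∑ b : (ZMod N)ˣ, (ε ((u * b : (ZMod N)ˣ) : ZMod N))⁻¹ • (⇑(G3 (b : ZMod N)) : ℍ → ℂ) :=
    Fintype.sum_equiv (Equiv.mulLeft u⁻¹) _ _ (fun b => by simp)
  have hb : ∀ b : (ZMod N)ˣ,
      (ε ((u * b : (ZMod N)ˣ) : ZMod N))⁻¹ • (⇑(G3 (b : ZMod N)) : ℍ → ℂ) =
        (ε (u : ZMod N))⁻¹ • ((ε (b : ZMod N))⁻¹ • (⇑(G3 (b : ZMod N)) : ℍ → ℂ)) := by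
    intro b
    rw [Units.val_mul, map_mul, mul_inv, mul_smul]
  rw [hre, Finset.sum_congr rfl fun b _ => hb b, ← Finset.smul_sum, smul_comm, hu']

/-! ### The `q`-expansion of the multiplier -/

omit [NeZero N] in
theorem units_ne_zero_of_odd (ε : DirichletCharacter ℂ N) (hodd : ε (-1) = -1) (b : (ZMod N)ˣ) :
    (b : ZMod N) ≠ 0 := by
  intro hb
  have h01 : (0 : ZMod N) = 1 := by
    have := b.inv_mul
    rw [hb, mul_zero] at this
    exact this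
  have hneg : (-1 : ZMod N) = 1 := by
    have h : ∀ x : ZMod N, x = 0 := fun x => by rw [← mul_one x, ← h01, mul_zero]
    rw [h (-1), h 1]
  rw [hneg, map_one] at hodd
  norm_num at hodd

theorem inv_mem_span_range (ε : DirichletCharacter ℂ N) (x : ZMod N) :
    (ε x)⁻¹ ∈ Submodule.span ℤ (Set.range ε) := by
  by_cases hx : IsUnit x
  · obtain ⟨u, rfl⟩ := hx
    apply Submodule.subset_span
    refine ⟨((u⁻¹ : (ZMod N)ˣ) : ZMod N), ?_⟩
    symm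
    apply inv_eq_of_mul_eq_one_right
    rw [← map_mul, ← Units.val_mul, mul_inv_cancel, Units.val_one, map_one]
  · rw [MulChar.map_nonunit ε hx, _root_.inv_zero]
    exact Submodule.zero_mem _

theorem qCoeff_multG (ε : DirichletCharacter ℂ N) (hodd : ε (-1) = -1) (n : ℕ) :
    qCoeff (⇑(multG ε) : ℍ → ℂ) n =
      ∑ d ∈ n.divisors, (d : ℂ) ^ 2 * (ε ((n / d : ℕ) : ZMod N))⁻¹ := by
  classical
  have hq : qExpansion 1 (⇑(multG ε) : ℍ → ℂ) =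
      (2 * lipC 3)⁻¹ • ∑ b : (ZMod N)ˣ, (ε (b : ZMod N))⁻¹ •
        (PowerSeries.C (lipC 3) * (tateP N 3 (b : ZMod N)).map (Int.castRingHom ℂ)) := by
    rw [coe_multG]
    have hnice : ∀ b ∈ (Finset.univ : Finset (ZMod N)ˣ),
        IsNice ((ε (b : ZMod N))⁻¹ • (⇑(G3 (b : ZMod N)) : ℍ → ℂ)) :=
      fun b _ => (isNice_of_Gamma1 (G3 (b : ZMod N))).smul _
    rw [(isNice_sum _ _ hnice).qExpansion_smul, isNice_qExpansion_sum _ _ hnice]
    congr 1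
    refine Finset.sum_congr rfl fun b _ => ?_
    rw [(isNice_of_Gamma1 (G3 (b : ZMod N))).qExpansion_smul,
      G3_qExpansion (units_ne_zero_of_odd ε hodd b)]
  unfold qCoeff
  rw [hq]
  simp only [map_smul, map_sum, PowerSeries.coeff_C_mul, PowerSeries.coeff_map, coeff_tateP,
    smul_eq_mul, eq_intCast]
  have hcast : ∀ b : (ZMod N)ˣ, ((tateCoeff N 3 (b : ZMod N) n : ℤ) : ℂ) =
      (∑ d ∈ n.divisors, (d : ℂ) ^ 2 * (if ((n / d : ℕ) : ZMod N) = (b : ZMod N) then 1 else 0)) -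
        ∑ d ∈ n.divisors, (d : ℂ) ^ 2 * (if ((n / d : ℕ) : ZMod N) = -(b : ZMod N) then 1 else 0) := by
    intro b
    unfold tateCoeff
    push_cast
    have e1 : ∀ d : ℕ, (if ((n / d : ℕ) : ZMod N) = (b : ZMod N) then ((d : ℂ) ^ 2) else 0) =
        (d : ℂ) ^ 2 * (if ((n / d : ℕ) : ZMod N) = (b : ZMod N) then 1 else 0) := by
      intro d; split_ifs <;> simp
    have e2 : ∀ d : ℕ, (if ((n / d : ℕ) : ZMod N) = -(b : ZMod N) then ((d : ℂ) ^ 2) else 0) =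
        (d : ℂ) ^ 2 * (if ((n / d : ℕ) : ZMod N) = -(b : ZMod N) then 1 else 0) := by
      intro d; split_ifs <;> simp
    simp only [e1, e2]
    ring
  simp only [hcast]
  -- swap the sums
  have hA : ∑ b : (ZMod N)ˣ, (ε (b : ZMod N))⁻¹ * (lipC 3 *
      ((∑ d ∈ n.divisors, (d : ℂ) ^ 2 *
          (if ((n / d : ℕ) : ZMod N) = (b : ZMod N) then 1 else 0)) -
        ∑ d ∈ n.divisors, (d : ℂ) ^ 2 *
          (if ((n / d : ℕ) : ZMod N) = -(b : ZMod N) then 1 else 0))) =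
      lipC 3 * (2 * ∑ d ∈ n.divisors, (d : ℂ) ^ 2 * (ε ((n / d : ℕ) : ZMod N))⁻¹) := by
    have h1 : ∀ d : ℕ, ∑ b : (ZMod N)ˣ, (ε (b : ZMod N))⁻¹ *
        ((d : ℂ) ^ 2 * (if ((n / d : ℕ) : ZMod N) = (b : ZMod N) then 1 else 0)) =
        (d : ℂ) ^ 2 * (ε ((n / d : ℕ) : ZMod N))⁻¹ := by
      intro d
      rw [← sum_units_inv_ite ε, Finset.mul_sum]
      refine Finset.sum_congr rfl fun b _ => ?_
      ring
    have h2 : ∀ d : ℕ, ∑ b : (ZMod N)ˣ, (ε (b : ZMod N))⁻¹ *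
        ((d : ℂ) ^ 2 * (if ((n / d : ℕ) : ZMod N) = -(b : ZMod N) then 1 else 0)) =
        -((d : ℂ) ^ 2 * (ε ((n / d : ℕ) : ZMod N))⁻¹) := by
      intro d
      rw [← mul_neg, ← sum_units_inv_ite_neg ε hodd, Finset.mul_sum]
      refine Finset.sum_congr rfl fun b _ => ?_
      ring
    simp only [mul_sub, Finset.mul_sum, Finset.sum_sub_distrib]
    rw [Finset.sum_comm, Finset.sum_comm (s := (Finset.univ : Finset (ZMod N)ˣ))]
    have h1' : ∀ d ∈ n.divisors, ∑ b : (ZMod N)ˣ, (ε (b : ZMod N))⁻¹ * (lipC 3 *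
        ((d : ℂ) ^ 2 * (if ((n / d : ℕ) : ZMod N) = (b : ZMod N) then 1 else 0))) =
        lipC 3 * ((d : ℂ) ^ 2 * (ε ((n / d : ℕ) : ZMod N))⁻¹) := by
      intro d _
      rw [← h1 d, Finset.mul_sum]
      refine Finset.sum_congr rfl fun b _ => ?_
      ring
    have h2' : ∀ d ∈ n.divisors, ∑ b : (ZMod N)ˣ, (ε (b : ZMod N))⁻¹ * (lipC 3 *
        ((d : ℂ) ^ 2 * (if ((n / d : ℕ) : ZMod N) = -(b : ZMod N) then 1 else 0))) =
        lipC 3 * -((d : ℂ) ^ 2 * (ε ((n / d : ℕ) : ZMod N))⁻¹) := by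
      intro d _
      rw [← h2 d, Finset.mul_sum]
      refine Finset.sum_congr rfl fun b _ => ?_
      ring
    rw [Finset.sum_congr rfl h1', Finset.sum_congr rfl h2', ← Finset.sum_sub_distrib]
    refine Finset.sum_congr rfl fun d _ => ?_
    ring
  rw [hA]
  field_simp [lipC_ne_zero 3]

theorem isUnit_lowerRight {γ : SL(2, ℤ)} (hγ : γ ∈ Gamma0 N) :
    IsUnit ((γ 1 1 : ℤ) : ZMod N) := by
  have hdet : (γ 0 0 : ℤ) * γ 1 1 - γ 0 1 * γ 1 0 = 1 := by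
    have := γ.2
    rw [Matrix.det_fin_two] at this
    exact this
  have h10 : ((γ 1 0 : ℤ) : ZMod N) = 0 := Gamma0_mem.mp hγ
  have hunit : ((γ 0 0 : ℤ) : ZMod N) * ((γ 1 1 : ℤ) : ZMod N) = 1 := by
    have := congrArg (fun x : ℤ => (x : ZMod N)) hdet
    simp only [Int.cast_sub, Int.cast_mul, Int.cast_one, h10, mul_zero, sub_zero] at this
    exact this
  exact IsUnit.of_mul_eq_one _ (by rw [mul_comm]; exact hunit)

/-- **FG-3 + FG-2 = `HasFGCoeffs` in weight one, nebentypus form.** A weight-one cusp form on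
`Γ₁(N)` with odd nebentypus `ε` has all its `q`-coefficients in a finitely generated `ℤ`-submodule
of `ℂ`. -/
theorem exists_fg_coeffs_weight_one (ε : DirichletCharacter ℂ N) (hodd : ε (-1) = -1)
    (h : CuspForm (Gamma1 N) 1)
    (hneb : ∀ γ ∈ Gamma0 N,
      (⇑h : ℍ → ℂ) ∣[(1 : ℤ)] γ = ε ((γ 1 1 : ℤ) : ZMod N) • (⇑h : ℍ → ℂ)) :
    ∃ P : Submodule ℤ ℂ, P.FG ∧ ∀ n, qCoeff (⇑h : ℍ → ℂ) n ∈ P := by
  have hSmul : ∀ x ∈ Submodule.span ℤ (Set.range ε), ∀ y ∈ Submodule.span ℤ (Set.range ε),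
      x * y ∈ Submodule.span ℤ (Set.range ε) := by
    intro x hx y hy
    have h1 : x * y ∈ Submodule.span ℤ (Set.range ε) * Submodule.span ℤ (Set.range ε) :=
      Submodule.mul_mem_mul hx hy
    rw [Submodule.span_mul_span] at h1
    refine Submodule.span_mono ?_ h1
    rintro _ ⟨_, ⟨a, rfl⟩, _, ⟨b, rfl⟩, rfl⟩
    exact ⟨a * b, map_mul ε a b⟩
  refine exists_fg_coeffs_of_nebentypus h (multG ε) (fun γ => ε ((γ 1 1 : ℤ) : ZMod N))
    (fun γ hγ => ?_) hneb (fun γ hγ => multG_slash ε hγ)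
    (Submodule.span ℤ (Set.range ε)) (Submodule.fg_span (Set.finite_range ε))
    (Submodule.subset_span ⟨1, map_one ε⟩) hSmul ?_ ?_ ?_
  · obtain ⟨u, hu⟩ := isUnit_lowerRight hγ
    show ε ((γ 1 1 : ℤ) : ZMod N) ≠ 0
    rw [← hu]
    exact (IsUnit.map ε u.isUnit).ne_zero
  · rw [qCoeff_multG ε hodd]
    simp
  · rw [qCoeff_multG ε hodd]
    simp
  · intro n
    rw [qCoeff_multG ε hodd]
    refine Submodule.sum_mem _ fun d _ => ?_
    have : (d : ℂ) ^ 2 * (ε ((n / d : ℕ) : ZMod N))⁻¹ =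
        ((d : ℤ) ^ 2) • (ε ((n / d : ℕ) : ZMod N))⁻¹ := by
      rw [zsmul_eq_mul]
      push_cast
      ring
    rw [this]
    exact Submodule.smul_mem _ _ (inv_mem_span_range ε _)

end Fermat.Agent.DS.DS1
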