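/-
PROGRAMME III (S48, Deligne–Serre), kernel DS1 (helper22): Galois descent over a subfield
`K ⊆ ℂ` for finite-dimensional spaces of "`q`-expansions" (the `K`-version of main's
`S23.span_rational_of_stable_of_autC`).
-/
import Mathlib
import Fermat.Agent.DS.DS1.AutCK

set_option autoImplicit false

namespace Fermat.Agent.DS.DS1

open Module

/-- **Descent over `K`.**  Let `V` be a finite-dimensional complex vector space with a separating
family of coefficient functionals `c n`.  If `V` is stable under coefficientwise application of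
all ring automorphisms of `ℂ` fixing the subfield `K` pointwise, then `V` is spanned by the
vectors all of whose coefficients lie in `K`. -/
theorem span_of_stable_of_fix (K : Subfield ℂ)
    {V : Type*} [AddCommGroup V] [Module ℂ V] [FiniteDimensional ℂ V]
    (c : ℕ → V →ₗ[ℂ] ℂ) (hc : ∀ v, (∀ n, c n v = 0) → v = 0)
    (hσ : ∀ σ : ℂ ≃+* ℂ, (∀ x ∈ K, σ x = x) → ∀ v : V, ∃ v' : V, ∀ n, c n v' = σ (c n v)) :
    Submodule.span ℂ {v : V | ∀ n, c n v ∈ K} = ⊤ := by
  classical
  -- Step 1: the coefficient functionals span the dual space.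
  have hspan : Submodule.span ℂ (Set.range c) = ⊤ := by
    have h1 : (Submodule.span ℂ (Set.range c)).dualCoannihilator = ⊥ := by
      rw [eq_bot_iff]
      intro v hv
      rw [Submodule.mem_dualCoannihilator] at hv
      exact hc v fun n => hv (c n) (Submodule.subset_span ⟨n, rfl⟩)
    have h2 := Subspace.dualCoannihilator_dualAnnihilator_eq
      (W := Submodule.span ℂ (Set.range c))
    rw [h1, Submodule.dualAnnihilator_bot] at h2
    exact h2.symm
  -- Step 2: a basis of the dual space consisting of coefficient functionals.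
  let b := Basis.ofSpan hspan.ge
  have : Finite ((linearIndepOn_empty ℂ (id : Dual ℂ V → Dual ℂ V)).extend
      (Set.empty_subset (Set.range c))) := Module.Finite.finite_basis b
  have : Fintype ((linearIndepOn_empty ℂ (id : Dual ℂ V → Dual ℂ V)).extend
      (Set.empty_subset (Set.range c))) := Fintype.ofFinite _
  have hbc : ∀ i, ∃ n, c n = b i := fun i => Basis.ofSpan_subset hspan.ge ⟨i, rfl⟩
  choose nn hnn using hbc
  -- Step 3: the dual basis of `V`.
  have he : ∀ i j, b i ((Module.evalEquiv ℂ V).symm (b.dualBasis j)) = if i = j then 1 else 0 := by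
    intro i j
    rw [Module.apply_evalEquiv_symm_apply, Basis.dualBasis_apply_self]
  have hsep : ∀ v : V, (∀ i, b i v = 0) → v = 0 := by
    intro v hv
    have h0 : Module.evalEquiv ℂ V v = 0 := by
      apply b.ext
      intro i
      simpa using hv i
    exact (Module.evalEquiv ℂ V).map_eq_zero_iff.mp h0
  -- Step 4: the dual basis vectors are fixed by conjugation over `K`, hence `K`-rational.
  have hfix : ∀ σ : ℂ ≃+* ℂ, (∀ x ∈ K, σ x = x) → ∀ j (n : ℕ),
      σ (c n ((Module.evalEquiv ℂ V).symm (b.dualBasis j))) =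
        c n ((Module.evalEquiv ℂ V).symm (b.dualBasis j)) := by
    intro σ hσK j n
    obtain ⟨v', hv'⟩ := hσ σ hσK ((Module.evalEquiv ℂ V).symm (b.dualBasis j))
    have hv'e : v' = (Module.evalEquiv ℂ V).symm (b.dualBasis j) := by
      rw [← sub_eq_zero]
      apply hsep
      intro i
      rw [map_sub, ← hnn i, hv' (nn i), hnn i, he]
      split_ifs <;> simp
    rw [← hv' n, hv'e]
  have hrat : ∀ j, (Module.evalEquiv ℂ V).symm (b.dualBasis j) ∈
      {v : V | ∀ n, c n v ∈ K} := by
    intro j n
    by_contra h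
    obtain ⟨σ, hσK, hσ'⟩ := exists_ringEquiv_fix_ne K _ h
    exact hσ' (hfix σ hσK j n)
  -- Step 5: the dual basis vectors span `V`.
  rw [eq_top_iff]
  intro v _
  have hv : v = ∑ j, b j v • (Module.evalEquiv ℂ V).symm (b.dualBasis j) := by
    rw [← sub_eq_zero]
    apply hsep
    intro i
    rw [map_sub, map_sum]
    simp only [map_smul, he, smul_eq_mul, mul_ite, mul_one, mul_zero, Finset.sum_ite_eq,
      Finset.mem_univ, if_true, sub_self]
  rw [hv]
  exact Submodule.sum_mem _ fun j _ =>
    Submodule.smul_mem _ _ (Submodule.subset_span (hrat j))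

/-- Consequence: a linear functional which does not vanish identically on `V` takes a nonzero
value on some `K`-rational vector. -/
theorem exists_rational_ne_zero (K : Subfield ℂ)
    {V : Type*} [AddCommGroup V] [Module ℂ V] [FiniteDimensional ℂ V]
    (c : ℕ → V →ₗ[ℂ] ℂ) (hc : ∀ v, (∀ n, c n v = 0) → v = 0)
    (hσ : ∀ σ : ℂ ≃+* ℂ, (∀ x ∈ K, σ x = x) → ∀ v : V, ∃ v' : V, ∀ n, c n v' = σ (c n v))
    (ℓ : V →ₗ[ℂ] ℂ) (v₀ : V) (h₀ : ℓ v₀ ≠ 0) :
    ∃ v : V, (∀ n, c n v ∈ K) ∧ ℓ v ≠ 0 := by
  by_contra hcon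
  push Not at hcon
  have hle : Submodule.span ℂ {v : V | ∀ n, c n v ∈ K} ≤ LinearMap.ker ℓ := by
    rw [Submodule.span_le]
    intro v hv
    exact hcon v hv
  rw [span_of_stable_of_fix K c hc hσ] at hle
  exact h₀ (hle (Submodule.mem_top : v₀ ∈ ⊤))

end Fermat.Agent.DS.DS1
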