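/-
PROGRAMME III (S48, Deligne–Serre), kernel DS1 (helper22), formal layer: statements about
sequences `a : ℕ → ℂ` satisfying the Hecke relations away from `N`.

* `formalT p c` : the formal Hecke operator `x ↦ (n ↦ x (p n) + c [p ∣ n] x (n / p))` on `ℕ → ℂ`;
* `linearIndependent_of_distinct_systems` : simultaneous eigenvectors of a family of operators
  (no commutation needed) with pairwise distinct systems of eigenvalues are linearly independent;
* `card_le_of_conj_family` : the counting statement behind "the field of coefficients is a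
  number field";
* `isIntegral_of_fg` : if all `a n` lie in a finitely generated `ℤ`-module then `a p` is integral;
* `exists_common_denominator` : common denominator on the algebraic part of a f.g. `ℤ`-module;
* `coeff_mem_of_mul_eq` : division of power series by a monic-leading series with coefficients
  in a subring.
-/
import Mathlib
import Fermat.Agent.DS.Rankin.EulerDefs

set_option autoImplicit false

namespace Fermat.Agent.DS.DS1

open Fermat.Agent.DS.Rankin

/-! ### The formal Hecke operators -/

/-- The formal Hecke operator on sequences. -/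
def formalT (p : ℕ) (c : ℂ) : (ℕ → ℂ) →ₗ[ℂ] (ℕ → ℂ) where
  toFun x := fun n => x (p * n) + c * (if p ∣ n then x (n / p) else 0)
  map_add' x y := by
    funext n
    by_cases h : p ∣ n
    · simp only [Pi.add_apply, h, if_true]; ring
    · simp only [Pi.add_apply, h, if_false]; ring
  map_smul' r x := by
    funext n
    by_cases h : p ∣ n
    · simp only [Pi.smul_apply, smul_eq_mul, h, if_true, RingHom.id_apply]; ring
    · simp only [Pi.smul_apply, smul_eq_mul, h, if_false, RingHom.id_apply]; ring

theorem formalT_apply (p : ℕ) (c : ℂ) (x : ℕ → ℂ) (n : ℕ) :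
    formalT p c x n = x (p * n) + c * (if p ∣ n then x (n / p) else 0) := rfl

/-- The Hecke relations say that `a` is an eigenvector of all formal Hecke operators. -/
theorem heckeRel_iff {N : ℕ} {e a : ℕ → ℂ} :
    HeckeRel N e a ↔ ∀ p : ℕ, p.Prime → ¬ p ∣ N → formalT p (e p) a = a p • a := by
  constructor
  · intro h p hp hpN
    funext n
    exact h p hp hpN n
  · intro h p hp hpN n
    exact congrFun (h p hp hpN) n

/-- Conjugating a solution of the Hecke relations by a ring automorphism of `ℂ`. -/
theorem heckeRel_conj {N : ℕ} {e a : ℕ → ℂ} (h : HeckeRel N e a) (σ : ℂ ≃+* ℂ) :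
    HeckeRel N (fun n => σ (e n)) (fun n => σ (a n)) := by
  intro p hp hpN n
  have := congrArg σ (h p hp hpN n)
  rw [map_add, map_mul, map_mul] at this
  rw [← this]
  by_cases hd : p ∣ n
  · simp only [hd, if_true]
  · simp only [hd, if_false, map_zero]

/-! ### Linear independence of simultaneous eigenvectors -/

/-- Simultaneous eigenvectors of a family of linear maps (not necessarily commuting, not
necessarily endomorphisms of a finite-dimensional space) with pairwise distinct systems of
eigenvalues are linearly independent. -/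
theorem linearIndependent_of_distinct_systems {R M : Type*} [Field R] [AddCommGroup M]
    [Module R M] {ι J : Type*} (T : J → Module.End R M) (v : ι → M) (χ : ι → J → R)
    (hv : ∀ i, v i ≠ 0) (hT : ∀ i j, T j (v i) = χ i j • v i) (hχ : Function.Injective χ) :
    LinearIndependent R v := by
  classical
  rw [linearIndependent_iff']
  intro s
  induction s using Finset.induction_on with
  | empty => intro g _ i hi; simp at hi
  | insert a s ha ih =>
    intro g hg
    rw [Finset.sum_insert ha] at hg
    -- apply `T j - χ a j` to the relation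
    have key : ∀ j, ∑ i ∈ s, (g i * (χ i j - χ a j)) • v i = 0 := by
      intro j
      have h1 : T j (g a • v a + ∑ i ∈ s, g i • v i) - χ a j • (g a • v a + ∑ i ∈ s, g i • v i)
          = 0 := by rw [hg]; simp
      rw [map_add, map_smul, hT, map_sum, smul_add, Finset.smul_sum] at h1
      have h2 : ∑ i ∈ s, (T j) (g i • v i) - ∑ i ∈ s, χ a j • g i • v i = 0 := by
        rw [← h1]
        rw [smul_comm (g a) (χ a j) (v a)]
        abel
      rw [← Finset.sum_sub_distrib] at h2
      rw [← h2]
      refine Finset.sum_congr rfl fun i _ => ?_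
      rw [map_smul, hT, smul_smul, smul_smul, ← sub_smul]
      congr 1
      ring
    have hs : ∀ i ∈ s, g i = 0 := by
      intro i hi
      have hia : i ≠ a := fun h => ha (h ▸ hi)
      have hne : χ i ≠ χ a := fun h => hia (hχ h)
      obtain ⟨j, hj⟩ := Function.ne_iff.mp hne
      have := ih (fun i => g i * (χ i j - χ a j)) (key j) i hi
      rcases mul_eq_zero.mp this with h | h
      · exact h
      · exact absurd (sub_eq_zero.mp h) hj
    have hsum : ∑ i ∈ s, g i • v i = 0 :=
      Finset.sum_eq_zero fun i hi => by rw [hs i hi, zero_smul]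
    rw [hsum, add_zero] at hg
    intro i hi
    rcases Finset.mem_insert.mp hi with rfl | hi
    · exact (smul_eq_zero.mp hg).resolve_right (hv _)
    · exact hs i hi

/-! ### Counting conjugate systems -/

/-- The set on which the conjugates of the system are compared: the `a p` for primes `p ∤ N`,
and the values of `e`. -/
def sysSet (N : ℕ) (e a : ℕ → ℂ) : Set ℂ :=
  {x | ∃ p : ℕ, p.Prime ∧ ¬ p ∣ N ∧ x = a p} ∪ Set.range e

/-- **Counting.**  Let `V` be a finite-dimensional space of "`q`-expansions" containing all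
`Aut(ℂ)`-conjugates of a normalised solution `a` of the Hecke relations, and assume that all
conjugates of `e` lie in a finite set `E`.  Then at most `dim V * #E` automorphisms of `ℂ` can be pairwise
distinguished on the `a p` (`p ∤ N` prime) and the values of `e`. -/
theorem card_le_of_conj_family {V : Type*} [AddCommGroup V] [Module ℂ V] [FiniteDimensional ℂ V]
    (q : V →ₗ[ℂ] (ℕ → ℂ)) {N : ℕ} {e a : ℕ → ℂ} (h1 : a 1 = 1) (hrec : HeckeRel N e a)
    (hconj : ∀ σ : ℂ ≃+* ℂ, ∃ v : V, ∀ n, q v n = σ (a n))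
    (E : Finset (ℕ → ℂ)) (hE : ∀ σ : ℂ ≃+* ℂ, (fun n : ℕ => σ (e n)) ∈ E)
    (T : Finset (ℂ ≃+* ℂ))
    (hT : ∀ σ ∈ T, ∀ τ ∈ T, σ ≠ τ → ∃ x ∈ sysSet N e a, σ x ≠ τ x) :
    T.card ≤ Module.finrank ℂ V * E.card := by
  classical
  choose v hv using hconj
  refine Finset.card_le_mul_card_image_of_maps_to (f := fun σ => fun n : ℕ => σ (e n))
    (fun σ _ => hE σ) (Module.finrank ℂ V) ?_
  intro b _
  -- the fibre over `b`
  set Tb : Finset (ℂ ≃+* ℂ) := T.filter fun σ => (fun n : ℕ => σ (e n)) = b with hTb
  have hmem : ∀ σ : Tb, (σ : ℂ ≃+* ℂ) ∈ T ∧ (fun n : ℕ => (σ : ℂ ≃+* ℂ) (e n)) = b := fun σ =>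
    Finset.mem_filter.mp σ.2
  have hli : LinearIndependent ℂ (fun σ : Tb => q (v σ)) := by
    refine linearIndependent_of_distinct_systems
      (J := {p : ℕ // p.Prime ∧ ¬ p ∣ N}) (fun j => formalT j.1 (b j.1))
      (fun σ : Tb => q (v σ)) (fun σ j => (σ : ℂ ≃+* ℂ) (a j.1)) ?_ ?_ ?_
    · intro σ h0
      have := congrFun h0 1
      rw [hv, h1, map_one] at this
      exact one_ne_zero this
    · intro σ j
      have hσ : HeckeRel N (fun n => (σ : ℂ ≃+* ℂ) (e n)) (fun n => (σ : ℂ ≃+* ℂ) (a n)) :=
        heckeRel_conj hrec σ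
      have hq : q (v σ) = fun n => (σ : ℂ ≃+* ℂ) (a n) := funext (hv σ)
      have := heckeRel_iff.mp hσ j.1 j.2.1 j.2.2
      rw [hq, ← congrFun (hmem σ).2 j.1]
      exact this
    · intro σ τ hστ
      by_contra hne
      have hne' : (σ : ℂ ≃+* ℂ) ≠ τ := fun h => hne (Subtype.ext h)
      obtain ⟨x, hx, hxne⟩ := hT σ (hmem σ).1 τ (hmem τ).1 hne'
      rcases hx with ⟨p, hp, hpN, rfl⟩ | ⟨n, rfl⟩
      · exact hxne (congrFun hστ ⟨p, hp, hpN⟩)
      · apply hxne
        have h2 := congrFun (hmem σ).2 n
        have h3 := congrFun (hmem τ).2 n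
        exact h2.trans h3.symm
  have hli' : LinearIndependent ℂ (fun σ : Tb => v σ) := LinearIndependent.of_comp q hli
  have := hli'.fintype_card_le_finrank
  simpa using this



/-! ### Integrality from a finitely generated module of coefficients -/

/-- The prime power coefficients satisfy the three-term recursion. -/
theorem heckeRel_prime_pow {N : ℕ} {e a : ℕ → ℂ} (hrec : HeckeRel N e a) {p : ℕ} (hp : p.Prime)
    (hpN : ¬ p ∣ N) (k : ℕ) :
    a p * a (p ^ (k + 1)) = a (p ^ (k + 2)) + e p * a (p ^ k) := by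
  have h := hrec p hp hpN (p ^ (k + 1))
  have hd : p ∣ p ^ (k + 1) := dvd_pow_self p (Nat.succ_ne_zero k)
  rw [if_pos hd, pow_succ p k, Nat.mul_div_cancel _ hp.pos, ← pow_succ, ← pow_succ'] at h
  exact h.symm

theorem heckeRel_prime_one {a : ℕ → ℂ} (h1 : a 1 = 1) (p : ℕ) :
    a p * a (p ^ 0) = a (p ^ 1) := by
  simp [h1]

/-- **Integrality.**  If all coefficients of a normalised solution of the Hecke relations lie in
a finitely generated `ℤ`-submodule of `ℂ`, then `a p` is an algebraic integer for every prime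
`p ∤ N` at which `e p` is an algebraic integer. -/
theorem isIntegral_of_fg {N : ℕ} {e a : ℕ → ℂ} (h1 : a 1 = 1) (hrec : HeckeRel N e a) {p : ℕ}
    (hp : p.Prime) (hpN : ¬ p ∣ N) (he : IsIntegral ℤ (e p))
    (hfg : ∃ P : Submodule ℤ ℂ, P.FG ∧ ∀ n, a n ∈ P) : IsIntegral ℤ (a p) := by
  obtain ⟨P, hP, haP⟩ := hfg
  set A : Subalgebra ℤ ℂ := Algebra.adjoin ℤ {e p} with hA
  have hAfg : (Subalgebra.toSubmodule A).FG := he.fg_adjoin_singleton
  set R₀ : Submodule ℤ ℂ := Subalgebra.toSubmodule A with hR₀
  have heR : e p ∈ R₀ := Algebra.subset_adjoin (Set.mem_singleton _)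
  have h1R : (1 : ℂ) ∈ R₀ := A.one_mem
  set U : Submodule ℤ ℂ := Submodule.span ℤ (Set.range fun k : ℕ => a (p ^ k)) with hU
  have hUP : U ≤ P := Submodule.span_le.mpr (by rintro _ ⟨k, rfl⟩; exact haP _)
  set M : Submodule ℤ ℂ := R₀ * U with hM
  have hMfg : M.FG := Submodule.FG.of_le (hAfg.mul hP)
    (Submodule.mul_le.mpr fun r hr n hn => Submodule.mul_mem_mul hr (hUP hn))
  have hu : ∀ k, a (p ^ k) ∈ U := fun k => Submodule.subset_span ⟨k, rfl⟩
  have huM : ∀ k, a (p ^ k) ∈ M := fun k => by
    have := Submodule.mul_mem_mul h1R (hu k)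
    rwa [one_mul] at this
  have hM0 : M ≠ ⊥ := by
    intro h0
    have : a (p ^ 0) ∈ M := huM 0
    rw [h0, Submodule.mem_bot, pow_zero, h1] at this
    exact one_ne_zero this
  -- `M` is stable under multiplication by `R₀`
  have hRM : ∀ r ∈ R₀, ∀ m ∈ M, r * m ∈ M := by
    intro r hr m hm
    have h2 : r * m ∈ R₀ * M := Submodule.mul_mem_mul hr hm
    rw [hM, ← mul_assoc, hR₀, (Subalgebra.isIdempotentElem_toSubmodule A).eq] at h2
    exact h2
  -- `a p * U ⊆ M`
  have hapU : ∀ n ∈ U, a p * n ∈ M := by
    intro n hn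
    induction hn using Submodule.span_induction with
    | mem x hx =>
      obtain ⟨k, rfl⟩ := hx
      rcases k with _ | k
      · rw [heckeRel_prime_one h1 p]
        exact huM 1
      · rw [heckeRel_prime_pow hrec hp hpN k]
        exact M.add_mem (huM _) (Submodule.mul_mem_mul heR (hu k))
    | zero => rw [mul_zero]; exact M.zero_mem
    | add x y _ _ hx hy => rw [mul_add]; exact M.add_mem hx hy
    | smul c x _ hx =>
      rw [mul_smul_comm]
      exact M.smul_mem c hx
  have hapM : ∀ m ∈ M, a p • m ∈ M := by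
    intro m hm
    rw [smul_eq_mul]
    refine Submodule.mul_induction_on hm (fun r hr n hn => ?_) (fun x y hx hy => ?_)
    · rw [mul_left_comm]
      exact hRM r hr _ (hapU n hn)
    · rw [mul_add]; exact M.add_mem hx hy
  exact isIntegral_of_smul_mem_submodule M hM0 hMfg (a p) hapM



/-! ### Common denominators -/

/-- The algebraic numbers as a `ℤ`-submodule of `ℂ`. -/
def algSubmodule : Submodule ℤ ℂ where
  carrier := {x | IsAlgebraic ℚ x}
  add_mem' := fun ha hb => IsAlgebraic.add ha hb
  zero_mem' := isAlgebraic_zero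
  smul_mem' := fun c x hx => by
    show IsAlgebraic ℚ (c • x)
    rw [zsmul_eq_mul]
    exact IsAlgebraic.mul (isAlgebraic_intCast c) hx

theorem mem_algSubmodule {x : ℂ} : x ∈ algSubmodule ↔ IsAlgebraic ℚ x := Iff.rfl

/-- A finite set of algebraic numbers has a common denominator. -/
theorem exists_common_denominator_finset (S : Finset ℂ) (hS : ∀ s ∈ S, IsAlgebraic ℚ s) :
    ∃ D : ℤ, D ≠ 0 ∧ ∀ s ∈ S, IsIntegral ℤ ((D : ℂ) * s) := by
  classical
  induction S using Finset.induction_on with
  | empty => exact ⟨1, one_ne_zero, by simp⟩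
  | insert x S _ ih =>
    obtain ⟨D, hD0, hD⟩ := ih fun s hs => hS s (Finset.mem_insert_of_mem hs)
    have hx : IsAlgebraic ℤ x :=
      (IsFractionRing.isAlgebraic_iff ℤ ℚ ℂ).mpr (hS x (Finset.mem_insert_self x S))
    obtain ⟨d, hd0, hd⟩ := hx.exists_integral_multiple
    rw [zsmul_eq_mul] at hd
    refine ⟨D * d, mul_ne_zero hD0 hd0, fun s hs => ?_⟩
    rcases Finset.mem_insert.mp hs with rfl | hs
    · have : ((D * d : ℤ) : ℂ) * s = (D : ℂ) * ((d : ℂ) * s) := by push_cast; ring
      rw [this]
      exact IsIntegral.mul isIntegral_algebraMap hd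
    · have : ((D * d : ℤ) : ℂ) * s = (d : ℂ) * ((D : ℂ) * s) := by push_cast; ring
      rw [this]
      exact IsIntegral.mul isIntegral_algebraMap (hD s hs)

/-- **Common denominator.**  The algebraic elements of a finitely generated `ℤ`-submodule of `ℂ`
have a common denominator. -/
theorem exists_common_denominator {P : Submodule ℤ ℂ} (hP : P.FG) :
    ∃ D : ℤ, D ≠ 0 ∧ ∀ x ∈ P, IsAlgebraic ℚ x → IsIntegral ℤ ((D : ℂ) * x) := by
  have hQ : (P ⊓ algSubmodule).FG := Submodule.FG.of_le hP inf_le_left
  obtain ⟨S, hS⟩ := hQ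
  have hSalg : ∀ s ∈ S, IsAlgebraic ℚ s := fun s hs => by
    have : s ∈ P ⊓ algSubmodule := hS ▸ Submodule.subset_span hs
    exact this.2
  obtain ⟨D, hD0, hD⟩ := exists_common_denominator_finset S hSalg
  refine ⟨D, hD0, fun x hxP hxalg => ?_⟩
  have hx : x ∈ Submodule.span ℤ (S : Set ℂ) := by
    rw [hS]
    exact ⟨hxP, hxalg⟩
  clear hxP hxalg
  induction hx using Submodule.span_induction with
  | mem s hs => exact hD s hs
  | zero => rw [mul_zero]; exact isIntegral_zero
  | add x y _ _ hx hy => rw [mul_add]; exact hx.add hy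
  | smul c x _ hx =>
    rw [zsmul_eq_mul, mul_left_comm]
    exact IsIntegral.mul isIntegral_algebraMap hx



/-! ### Division of power series -/

open PowerSeries in
/-- **Division.**  If `A * B = C` in `ℂ⟦X⟧`, where `B = X ^ m * (1 + ⋯)` has coefficients in a
subring `R` and `C` has coefficients in a `ℤ`-submodule `P`, then `A` has coefficients in
`R * P`. -/
theorem coeff_mem_of_mul_eq {A B C : PowerSeries ℂ} (hmul : A * B = C) (R : Subalgebra ℤ ℂ)
    {m : ℕ} (hB : ∀ n, coeff n B ∈ R) (hBm : coeff m B = 1) (hB0 : ∀ n < m, coeff n B = 0)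
    {P : Submodule ℤ ℂ} (hC : ∀ n, coeff n C ∈ P) (n : ℕ) :
    coeff n A ∈ Subalgebra.toSubmodule R * P := by
  classical
  set B₁' : PowerSeries R := PowerSeries.mk fun n => ⟨coeff (n + m) B, hB _⟩ with hB₁'
  have hc : constantCoeff B₁' = ((1 : Rˣ) : R) := by
    rw [← coeff_zero_eq_constantCoeff_apply, hB₁', coeff_mk]
    apply Subtype.ext
    simp [hBm]
  set I' : PowerSeries R := invOfUnit B₁' 1 with hI'
  have hinv : B₁' * I' = 1 := mul_invOfUnit B₁' 1 hc
  set φ : R →+* ℂ := R.val.toRingHom with hφ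
  have hB₁ : B = X ^ m * B₁'.map φ := by
    ext k
    rw [coeff_X_pow_mul']
    split_ifs with h
    · rw [coeff_map, hB₁', coeff_mk]
      show coeff k B = coeff (k - m + m) B
      rw [Nat.sub_add_cancel h]
    · exact hB0 k (not_le.mp h)
  have hinv' : B₁'.map φ * I'.map φ = 1 := by
    rw [← map_mul, hinv, map_one]
  have key : A * X ^ m = C * I'.map φ := by
    calc A * X ^ m = A * X ^ m * (B₁'.map φ * I'.map φ) := by rw [hinv', mul_one]
      _ = A * (X ^ m * B₁'.map φ) * I'.map φ := by ring
      _ = C * I'.map φ := by rw [← hB₁, hmul]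
  have h1 : coeff n A = coeff (n + m) (A * X ^ m) := (coeff_mul_X_pow A m n).symm
  rw [h1, key, coeff_mul]
  refine Submodule.sum_mem _ fun ij _ => ?_
  rw [mul_comm (coeff ij.1 C), coeff_map]
  exact Submodule.mul_mem_mul (coeff ij.2 I').2 (hC ij.1)

end Fermat.Agent.DS.DS1
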