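/-
PROGRAMME III (S48, Deligne–Serre), kernel DS1 (helper22): the field of coefficients of a
weight-one eigenform on `Γ₁(N)`.

Named input: `HasConj N` (`Aut(ℂ)` acts on the `q`-expansions of `S₁(Γ₁(N))`; = W-CONJ).
Outputs (for `f` satisfying the frozen hypotheses `IsEigen N ε f`):
* `IsEigen.conj`            : the conjugate form `f^σ` of the SAME level, character `σ ∘ ε`;
* `IsEigen.exists_numberField` : a number field containing all `a_p` (`p ∤ N`) and the values of `ε`;
* `IsEigen.exists_rational` : a `K`-rational normalised eigenform with the same `a_p`;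
* `IsEigen.conj_embedding`  : every embedding of `K` is realised by an eigenform;
* `IsEigen.isIntegral`, `IsEigen.exists_common_denominator` : integrality from a finitely
  generated module of coefficients.
-/
import Mathlib
import Fermat.Agent.S23.Basic
import Fermat.Agent.DS.DS1.AutCK
import Fermat.Agent.DS.DS1.DescentK
import Fermat.Agent.DS.DS1.Formal
import Fermat.Prelude.Def_FLTPrelim_Modularity
import Fermat.Prelude.Thm_ModularForm_sturm_bound_of_isArithmetic

set_option autoImplicit false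

namespace Fermat.Agent.DS.DS1

open CongruenceSubgroup UpperHalfPlane ModularFormClass Fermat.Agent.S23 Fermat.Agent.DS.Rankin
open scoped MatrixGroups

/-! ### Basic API for cusp forms on `Γ₁(N)` -/

private theorem one_mem_strictPeriods_Gamma1 (N : ℕ) :
    (1 : ℝ) ∈ (Gamma1 N : Subgroup (GL (Fin 2) ℝ)).strictPeriods := by
  rw [strictPeriods_Gamma1]
  exact AddSubgroup.mem_zmultiples 1

theorem isNice_cuspForm_Gamma1 {N : ℕ} [NeZero N] {k : ℤ} (f : CuspForm (Gamma1 N) k) :
    IsNice (f : ℍ → ℂ) :=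
  isNice_of_modularForm (one_mem_strictPeriods_Gamma1 N) f

/-- The `q`-expansion as a linear map into sequences. -/
noncomputable def qLin (N : ℕ) [NeZero N] (k : ℤ) : CuspForm (Gamma1 N) k →ₗ[ℂ] (ℕ → ℂ) where
  toFun f := fun n => qCoeff f n
  map_add' f g := by
    funext n
    have h := (isNice_cuspForm_Gamma1 f).qExpansion_add (isNice_cuspForm_Gamma1 g)
    have hc : (⇑(f + g) : ℍ → ℂ) = ⇑f + ⇑g := rfl
    simp only [qCoeff, Pi.add_apply]
    rw [hc, h, map_add]
  map_smul' c f := by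
    funext n
    have h := (isNice_cuspForm_Gamma1 f).qExpansion_smul c
    have hc : (⇑(c • f) : ℍ → ℂ) = c • ⇑f := rfl
    simp only [qCoeff, Pi.smul_apply, RingHom.id_apply]
    rw [hc, h]
    simp

@[simp] theorem qLin_apply {N : ℕ} [NeZero N] {k : ℤ} (f : CuspForm (Gamma1 N) k) (n : ℕ) :
    qLin N k f n = qCoeff f n := rfl

theorem qLin_injective (N : ℕ) [NeZero N] (k : ℤ) : Function.Injective (qLin N k) := by
  rw [injective_iff_map_eq_zero]
  intro f hf
  have hq : qExpansion 1 (f : ℍ → ℂ) = 0 := by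
    ext n
    have := congrFun hf n
    simpa [qCoeff] using this
  have hn := isNice_cuspForm_Gamma1 f
  have h0 := (qExpansion_eq_zero_iff one_pos hn.1 hn.2.1 hn.2.2).mp hq
  exact DFunLike.coe_injective h0

/-- `S_k(Γ₁(N))` is finite-dimensional (Sturm bound of the prelude). -/
theorem finiteDimensional_cuspForm_Gamma1 (N : ℕ) [NeZero N] (k : ℤ) :
    FiniteDimensional ℂ (CuspForm (Gamma1 N) k) := by
  set B : ℕ := (k * (Gamma1 N : Subgroup (GL (Fin 2) ℝ)).relIndex 𝒮ℒ).toNat / 12 with hB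
  have hL : Function.Injective
      ((LinearMap.pi fun i : Fin (B + 1) => LinearMap.proj (i : ℕ)) ∘ₗ qLin N k) := by
    rw [injective_iff_map_eq_zero]
    intro f hf
    have h0 : (ModularFormClass.modularForm f : ModularForm (Gamma1 N) k) = 0 := by
      apply ModularForm.sturm_bound_of_isArithmetic (one_mem_strictPeriods_Gamma1 N)
      rw [← hB]
      have hle : ((B + 1 : ℕ) : ℕ∞) ≤
          (qExpansion 1 (ModularFormClass.modularForm f : ModularForm (Gamma1 N) k)).order := by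
        apply PowerSeries.nat_le_order
        intro i hi
        have := congrFun hf ⟨i, hi⟩
        simpa [qCoeff] using this
      refine lt_of_lt_of_le ?_ hle
      exact_mod_cast Nat.lt_succ_self B
    apply DFunLike.coe_injective
    have := congrArg (fun g : ModularForm (Gamma1 N) k => (g : ℍ → ℂ)) h0
    simpa using this
  exact FiniteDimensional.of_injective _ hL

/-! ### The named input and the frozen hypotheses -/

/-- **Named input (W-CONJ)**: `Aut(ℂ)` acts on the `q`-expansions of the weight-one cusp forms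
of level `Γ₁(N)`. -/
def HasConj (N : ℕ) : Prop :=
  ∀ (σ : ℂ ≃+* ℂ) (F : CuspForm (Gamma1 N) 1),
    ∃ F' : CuspForm (Gamma1 N) 1, IsConj σ F F'

/-- The hypotheses of the frozen statement S48 on the form `f`. -/
structure IsEigen (N : ℕ) [NeZero N] (ε : DirichletCharacter ℂ N)
    (f : CuspForm (Gamma1 N) 1) : Prop where
  one : qCoeff f 1 = 1
  rel : ∀ p : ℕ, p.Prime → ¬ p ∣ N → ∀ n : ℕ,
    qCoeff f (p * n) + ε (p : ZMod N) * (if p ∣ n then qCoeff f (n / p) else 0) =
      qCoeff f p * qCoeff f n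

variable {N : ℕ} [NeZero N] {ε : DirichletCharacter ℂ N} {f : CuspForm (Gamma1 N) 1}

/-- The character as a sequence. -/
noncomputable def charSeq (ε : DirichletCharacter ℂ N) : ℕ → ℂ := fun n => ε (n : ZMod N)

theorem isEigen_iff : IsEigen N ε f ↔
    qCoeff f 1 = 1 ∧ HeckeRel N (charSeq ε) (fun n => qCoeff f n) :=
  ⟨fun h => ⟨h.one, h.rel⟩, fun h => ⟨h.1, h.2⟩⟩

theorem IsEigen.heckeRel (h : IsEigen N ε f) :
    HeckeRel N (charSeq ε) (fun n => qCoeff f n) := h.rel

omit [NeZero N] in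
theorem charSeq_ringHomComp (ε : DirichletCharacter ℂ N) (σ : ℂ ≃+* ℂ) :
    charSeq (ε.ringHomComp (σ : ℂ →+* ℂ)) = fun n => σ (charSeq ε n) := rfl

/-- Every value of `ε` is a value of `charSeq ε`. -/
theorem mem_range_charSeq (ε : DirichletCharacter ℂ N) (x : ZMod N) :
    ε x ∈ Set.range (charSeq ε) :=
  ⟨x.val, by simp [charSeq]⟩

/-! ### O1: conjugate forms -/

/-- **O1 (= K-DS1a).**  The conjugate of an eigenform by an automorphism of `ℂ` is an eigenform
of the same level for the conjugate character. -/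
theorem IsEigen.conj (hc : HasConj N) (h : IsEigen N ε f) (σ : ℂ ≃+* ℂ) :
    ∃ f' : CuspForm (Gamma1 N) 1, (∀ n, qCoeff f' n = σ (qCoeff f n)) ∧
      IsEigen N (ε.ringHomComp (σ : ℂ →+* ℂ)) f' := by
  obtain ⟨f', hf'⟩ := hc σ f
  have hcoef : ∀ n, qCoeff f' n = σ (qCoeff f n) := fun n => isConj_iff.mp hf' n
  refine ⟨f', hcoef, ?_⟩
  rw [isEigen_iff]
  constructor
  · rw [hcoef, h.one, map_one]
  · have h2 := heckeRel_conj h.heckeRel σ
    rw [charSeq_ringHomComp]
    have : (fun n => qCoeff (⇑f') n) = fun n => σ (qCoeff (⇑f) n) := funext hcoef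
    rw [this]
    exact h2

/-! ### O3: the number field -/

/-- The finite set of all sequences attached to Dirichlet characters modulo `N`. -/
noncomputable def charSeqFinset (N : ℕ) [NeZero N] : Finset (ℕ → ℂ) := by
  classical
  exact (Finset.univ : Finset (DirichletCharacter ℂ N)).image charSeq

theorem conj_charSeq_mem (ε : DirichletCharacter ℂ N) (σ : ℂ ≃+* ℂ) :
    (fun n : ℕ => σ (charSeq ε n)) ∈ charSeqFinset N := by
  classical
  unfold charSeqFinset
  rw [Finset.mem_image]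
  exact ⟨ε.ringHomComp (σ : ℂ →+* ℂ), Finset.mem_univ _, charSeq_ringHomComp ε σ⟩

/-- The set generating the field of coefficients. -/
def coeffSet (ε : DirichletCharacter ℂ N) (f : CuspForm (Gamma1 N) 1) : Set ℂ :=
  sysSet N (charSeq ε) (fun n => qCoeff f n)

/-- The field of coefficients `ℚ(a_p (p ∤ N), ε)`. -/
noncomputable def coeffField (ε : DirichletCharacter ℂ N) (f : CuspForm (Gamma1 N) 1) :
    IntermediateField ℚ ℂ :=
  IntermediateField.adjoin ℚ (coeffSet ε f)

omit [NeZero N] in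
theorem qCoeff_mem_coeffField (ε : DirichletCharacter ℂ N) (f : CuspForm (Gamma1 N) 1) {p : ℕ}
    (hp : p.Prime) (hpN : ¬ p ∣ N) : qCoeff f p ∈ coeffField ε f :=
  IntermediateField.subset_adjoin ℚ _ (Or.inl ⟨p, hp, hpN, rfl⟩)

theorem char_mem_coeffField (ε : DirichletCharacter ℂ N) (f : CuspForm (Gamma1 N) 1)
    (x : ZMod N) : ε x ∈ coeffField ε f :=
  IntermediateField.subset_adjoin ℚ _ (Or.inr (mem_range_charSeq ε x))

/-- The counting statement for an eigenform. -/
theorem IsEigen.card_le (hc : HasConj N) (h : IsEigen N ε f) (T : Finset (ℂ ≃+* ℂ))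
    (hT : ∀ σ ∈ T, ∀ τ ∈ T, σ ≠ τ → ∃ x ∈ coeffSet ε f, σ x ≠ τ x) :
    T.card ≤ Module.finrank ℂ (CuspForm (Gamma1 N) 1) * (charSeqFinset N).card := by
  have := finiteDimensional_cuspForm_Gamma1 N 1
  refine card_le_of_conj_family (qLin N 1) h.one h.heckeRel ?_ (charSeqFinset N)
    (conj_charSeq_mem ε) T hT
  intro σ
  obtain ⟨f', hf', -⟩ := h.conj hc σ
  exact ⟨f', hf'⟩

/-- **O3 (= K-DS1b, field part).**  The field of coefficients of an eigenform is a number
field. -/
theorem IsEigen.finiteDimensional_coeffField (hc : HasConj N) (h : IsEigen N ε f) :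
    FiniteDimensional ℚ (coeffField ε f) :=
  finiteDimensional_adjoin_of_card_le _ _ (h.card_le hc)

theorem IsEigen.finrank_coeffField_le (hc : HasConj N) (h : IsEigen N ε f) :
    Module.finrank ℚ (coeffField ε f) ≤
      Module.finrank ℂ (CuspForm (Gamma1 N) 1) * (charSeqFinset N).card :=
  finrank_adjoin_le_of_card_le _ _ (h.card_le hc)

/-- **O3**, existential form. -/
theorem IsEigen.exists_numberField (hc : HasConj N) (h : IsEigen N ε f) :
    ∃ K : IntermediateField ℚ ℂ, FiniteDimensional ℚ K ∧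
      (∀ p : ℕ, p.Prime → ¬ p ∣ N → qCoeff f p ∈ K) ∧ ∀ x : ZMod N, ε x ∈ K :=
  ⟨coeffField ε f, h.finiteDimensional_coeffField hc,
    fun _ hp hpN => qCoeff_mem_coeffField ε f hp hpN, char_mem_coeffField ε f⟩

/-- The `a_p` are algebraic. -/
theorem IsEigen.isAlgebraic (hc : HasConj N) (h : IsEigen N ε f) {p : ℕ} (hp : p.Prime)
    (hpN : ¬ p ∣ N) : IsAlgebraic ℚ (qCoeff f p) :=
  isAlgebraic_of_card_le (h.card_le hc) (Or.inl ⟨p, hp, hpN, rfl⟩)

/-! ### O6: embeddings of the field of coefficients -/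

/-- **O6.**  Every embedding of a subfield `K ⊆ ℂ` algebraic over `ℚ` and containing the `a_p`
is realised by an eigenform of the same level. -/
theorem IsEigen.conj_embedding (hc : HasConj N) (h : IsEigen N ε f) (K : IntermediateField ℚ ℂ)
    (hKalg : Algebra.IsAlgebraic ℚ K)
    (hK : ∀ p : ℕ, p.Prime → ¬ p ∣ N → qCoeff f p ∈ K) (τ : K →+* ℂ) :
    ∃ (ε' : DirichletCharacter ℂ N) (f' : CuspForm (Gamma1 N) 1), IsEigen N ε' f' ∧
      ∀ (p : ℕ) (hp : p.Prime) (hpN : ¬ p ∣ N), qCoeff f' p = τ ⟨qCoeff f p, hK p hp hpN⟩ := by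
  obtain ⟨σ, hσ⟩ := exists_ringEquiv_extends K hKalg τ
  obtain ⟨f', hf', hE⟩ := h.conj hc σ
  refine ⟨_, f', hE, fun p hp hpN => ?_⟩
  rw [hf', ← hσ]

/-! ### O4: a rational eigenvector -/

/-- The formal eigenspace of the system of `f` inside `S₁(Γ₁(N))`. -/
noncomputable def eigenSubmodule (ε : DirichletCharacter ℂ N) (f : CuspForm (Gamma1 N) 1) :
    Submodule ℂ (CuspForm (Gamma1 N) 1) where
  carrier := {F | ∀ p : ℕ, p.Prime → ¬ p ∣ N →
    formalT p (charSeq ε p) (qLin N 1 F) = qCoeff f p • qLin N 1 F}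
  add_mem' := by
    intro F G hF hG p hp hpN
    rw [map_add, map_add, hF p hp hpN, hG p hp hpN, smul_add]
  zero_mem' := by
    intro p _ _
    rw [map_zero, map_zero, smul_zero]
  smul_mem' := by
    intro c F hF p hp hpN
    rw [map_smul, map_smul, hF p hp hpN, smul_comm]

theorem mem_eigenSubmodule {F : CuspForm (Gamma1 N) 1} :
    F ∈ eigenSubmodule ε f ↔ ∀ p : ℕ, p.Prime → ¬ p ∣ N → ∀ n : ℕ,
      qCoeff F (p * n) + ε (p : ZMod N) * (if p ∣ n then qCoeff F (n / p) else 0) =
        qCoeff f p * qCoeff F n := by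
  constructor
  · intro h p hp hpN n
    exact congrFun (h p hp hpN) n
  · intro h p hp hpN
    funext n
    exact h p hp hpN n

theorem IsEigen.mem_eigenSubmodule (h : IsEigen N ε f) : f ∈ eigenSubmodule ε f :=
  Fermat.Agent.DS.DS1.mem_eigenSubmodule.mpr h.rel

/-- **O4 (referee note A2).**  A normalised eigenform with all `q`-coefficients in `K` and the
same eigenvalues, for every subfield `K ⊆ ℂ` containing the `a_p` and the values of `ε`. -/
theorem IsEigen.exists_rational (hc : HasConj N) (h : IsEigen N ε f) (K : IntermediateField ℚ ℂ)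
    (hK : ∀ p : ℕ, p.Prime → ¬ p ∣ N → qCoeff f p ∈ K) (hε : ∀ x : ZMod N, ε x ∈ K) :
    ∃ g : CuspForm (Gamma1 N) 1, IsEigen N ε g ∧ (∀ n, qCoeff g n ∈ K) ∧
      ∀ p : ℕ, p.Prime → ¬ p ∣ N → qCoeff g p = qCoeff f p := by
  have := finiteDimensional_cuspForm_Gamma1 N 1
  set V := eigenSubmodule ε f with hV
  -- coefficient functionals on `V`
  let c : ℕ → V →ₗ[ℂ] ℂ := fun n => (LinearMap.proj n ∘ₗ qLin N 1) ∘ₗ V.subtype
  have hcv : ∀ (n : ℕ) (v : V), c n v = qCoeff (v : CuspForm (Gamma1 N) 1) n := fun _ _ => rfl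
  have hsep : ∀ v : V, (∀ n, c n v = 0) → v = 0 := by
    intro v hv
    apply Subtype.ext
    apply qLin_injective N 1
    rw [ZeroMemClass.coe_zero, map_zero]
    funext n
    exact hv n
  have hstab : ∀ σ : ℂ ≃+* ℂ, (∀ x ∈ K.toSubfield, σ x = x) → ∀ v : V,
      ∃ v' : V, ∀ n, c n v' = σ (c n v) := by
    intro σ hσK v
    obtain ⟨F', hF'⟩ := hc σ (v : CuspForm (Gamma1 N) 1)
    have hcoef : ∀ n, qCoeff F' n = σ (qCoeff (v : CuspForm (Gamma1 N) 1) n) :=
      fun n => isConj_iff.mp hF' n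
    have hmem : F' ∈ V := by
      rw [hV, Fermat.Agent.DS.DS1.mem_eigenSubmodule]
      intro p hp hpN n
      have h1 := congrArg σ
        (Fermat.Agent.DS.DS1.mem_eigenSubmodule.mp v.2 p hp hpN n)
      rw [map_add, map_mul, map_mul, hσK _ (hε _), hσK _ (hK p hp hpN)] at h1
      rw [hcoef (p * n), hcoef n, ← h1]
      by_cases hd : p ∣ n
      · simp only [hd, if_true, hcoef]
      · simp only [hd, if_false, map_zero]
    exact ⟨⟨F', hmem⟩, fun n => hcoef n⟩
  obtain ⟨g₀, hg₀K, hg₀1⟩ := exists_rational_ne_zero K.toSubfield c hsep hstab (c 1)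
    ⟨f, h.mem_eigenSubmodule⟩ (by
      rw [hcv]
      show qCoeff f 1 ≠ 0
      rw [h.one]
      exact one_ne_zero)
  -- normalise
  set a₁ : ℂ := qCoeff (g₀ : CuspForm (Gamma1 N) 1) 1 with ha₁
  have ha₁0 : a₁ ≠ 0 := hg₀1
  have ha₁K : a₁ ∈ K := hg₀K 1
  set g : V := a₁⁻¹ • g₀ with hg
  have hgcoef : ∀ n, qCoeff (g : CuspForm (Gamma1 N) 1) n =
      a₁⁻¹ * qCoeff (g₀ : CuspForm (Gamma1 N) 1) n := by
    intro n
    have : qLin N 1 (g : CuspForm (Gamma1 N) 1) = a₁⁻¹ • qLin N 1 (g₀ : CuspForm (Gamma1 N) 1) := by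
      rw [hg, Submodule.coe_smul, map_smul]
    exact congrFun this n
  have hg1 : qCoeff (g : CuspForm (Gamma1 N) 1) 1 = 1 := by
    rw [hgcoef, ← ha₁, inv_mul_cancel₀ ha₁0]
  have hgrel := Fermat.Agent.DS.DS1.mem_eigenSubmodule.mp g.2
  have hgp : ∀ p : ℕ, p.Prime → ¬ p ∣ N →
      qCoeff (g : CuspForm (Gamma1 N) 1) p = qCoeff f p := by
    intro p hp hpN
    have h1 := hgrel p hp hpN 1
    have hnd : ¬ p ∣ 1 := fun hd => hp.one_lt.ne' (Nat.dvd_one.mp hd)
    rw [if_neg hnd, mul_zero, add_zero, mul_one, hg1, mul_one] at h1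
    exact h1
  refine ⟨g, ⟨hg1, ?_⟩, ?_, hgp⟩
  · intro p hp hpN n
    rw [hgp p hp hpN]
    exact hgrel p hp hpN n
  · intro n
    rw [hgcoef]
    exact K.mul_mem (K.inv_mem ha₁K) (hg₀K n)

/-! ### O2, O5: integrality -/

/-- The values of a Dirichlet character are algebraic integers. -/
theorem isIntegral_char (ε : DirichletCharacter ℂ N) (x : ZMod N) : IsIntegral ℤ (ε x) := by
  by_cases hx : IsUnit x
  · obtain ⟨u, rfl⟩ := hx
    have hpow : ε (u : ZMod N) ^ Fintype.card (ZMod N)ˣ = 1 := by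
      rw [← map_pow, ← Units.val_pow_eq_pow_val, pow_card_eq_one, Units.val_one, map_one]
    exact IsIntegral.of_pow Fintype.card_pos (hpow ▸ isIntegral_one)
  · rw [ε.map_nonunit hx]
    exact isIntegral_zero

/-- **O2 (= K-DS1b, integrality part).**  If the `q`-coefficients of an eigenform lie in a
finitely generated `ℤ`-submodule of `ℂ`, then `a_p` is an algebraic integer for all `p ∤ N`. -/
theorem IsEigen.isIntegral (h : IsEigen N ε f)
    (hfg : ∃ P : Submodule ℤ ℂ, P.FG ∧ ∀ n, qCoeff f n ∈ P) {p : ℕ} (hp : p.Prime)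
    (hpN : ¬ p ∣ N) : IsIntegral ℤ (qCoeff f p) :=
  isIntegral_of_fg (a := fun n => qCoeff f n) h.one h.heckeRel hp hpN (isIntegral_char ε _) hfg

omit [NeZero N] in
/-- **O5.**  Common denominator for a form with algebraic coefficients lying in a finitely
generated `ℤ`-module. -/
theorem exists_common_denominator_qCoeff (g : CuspForm (Gamma1 N) 1)
    (hfg : ∃ P : Submodule ℤ ℂ, P.FG ∧ ∀ n, qCoeff g n ∈ P)
    (hg : ∀ n, IsAlgebraic ℚ (qCoeff g n)) :
    ∃ D : ℤ, D ≠ 0 ∧ ∀ n, IsIntegral ℤ ((D : ℂ) * qCoeff g n) := by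
  obtain ⟨P, hP, hgP⟩ := hfg
  obtain ⟨D, hD0, hD⟩ := exists_common_denominator hP
  exact ⟨D, hD0, fun n => hD _ (hgP n) (hg n)⟩

end Fermat.Agent.DS.DS1
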