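/-
PROGRAMME III (S48, Deligne–Serre), kernel DS1 (helper22): the kernels `DS1a` and `DS1b` of the
skeleton (helper4, `Fermat/Agent/DS/S48Skeleton.lean`) from the two named inputs

* `HasConj N` for every `N` (W-CONJ: `Aut(ℂ)` acts on the `q`-expansions of `S₁(Γ₁(N))`);
* `HasFGEigen` (BDD: the `q`-coefficients of a form satisfying the frozen hypotheses lie in a
  finitely generated `ℤ`-submodule of `ℂ`).
-/
import Mathlib
import Fermat.Agent.DS.S48Skeleton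
import Fermat.Agent.DS.DS1.Main

set_option autoImplicit false

namespace Fermat.Agent.DS.DS1

open CongruenceSubgroup UpperHalfPlane ModularFormClass Fermat.Agent.DS.S48Skeleton
open scoped MatrixGroups

/-- **Named input (BDD).** -/
def HasFGEigen : Prop :=
  ∀ (N : ℕ) [NeZero N] (ε : DirichletCharacter ℂ N) (f : CuspForm (Gamma1 N) 1),
    IsEigen N ε f → ∃ P : Submodule ℤ ℂ, P.FG ∧ ∀ n, qCoeff f n ∈ P

theorem isW1Sys_iff {N : ℕ} [NeZero N] {ε : DirichletCharacter ℂ N} {a : ℕ → ℂ} :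
    IsW1Sys N ε a ↔ ∃ f : CuspForm (Gamma1 N) 1, IsEigen N ε f ∧
      ∀ p : ℕ, p.Prime → ¬ p ∣ N → qCoeff f p = a p :=
  ⟨fun ⟨f, h1, h2, h3⟩ => ⟨f, ⟨h1, h2⟩, h3⟩, fun ⟨f, h, h3⟩ => ⟨f, h.one, h.rel, h3⟩⟩

/-- The skeleton's kernel **DS1a** (v4: conjugate systems at the same level). -/
theorem ds1a (hc : ∀ (N : ℕ) [NeZero N], HasConj N) : DS1a := by
  intro N _ ε a ha σ
  obtain ⟨f, hf, hfa⟩ := isW1Sys_iff.mp ha
  obtain ⟨f', hf', hE⟩ := hf.conj (hc N) σ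
  exact isW1Sys_iff.mpr ⟨f', hE, fun p hp hpN => by rw [hf', hfa p hp hpN]⟩

/-- The skeleton's kernel **DS1b**. -/
theorem ds1b (hc : ∀ (N : ℕ) [NeZero N], HasConj N) (hfg : HasFGEigen) : DS1b := by
  intro N _ ε a ha
  obtain ⟨f, hf, hfa⟩ := isW1Sys_iff.mp ha
  refine ⟨fun p hp hpN => ?_, ?_⟩
  · rw [← hfa p hp hpN]
    exact hf.isIntegral (hfg N ε f hf) hp hpN
  · obtain ⟨K, hK, hKa, -⟩ := hf.exists_numberField (hc N)
    exact ⟨K, hK, fun p hp hpN => by rw [← hfa p hp hpN]; exact hKa p hp hpN⟩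

end Fermat.Agent.DS.DS1
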