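/-
PROGRAMME III (S48, Deligne–Serre), kernel DS1 (helper22): the skeleton's kernels `DS1a` and
`DS1b` UNCONDITIONALLY.

* `HasConj N`   := helper20's `W2Z.cuspForm_conj_Gamma1` at weight one;
* `HasFGEigen`  := helper25's `exists_fg_coeffs_weight_one` applied to helper2's DS0 outputs
  `Neben.nebentypus` and `Neben.eps_neg_one`.
-/
import Mathlib
import Fermat.Agent.DS.DS1.Skeleton
import Fermat.Agent.DS.W2Z.PrimGamma1
import Fermat.Agent.DS.Neben.Main
import Fermat.Agent.DS.DS1.FGMultiplier

set_option autoImplicit false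

namespace Fermat.Agent.DS.DS1

open CongruenceSubgroup UpperHalfPlane ModularFormClass Fermat.Agent.DS.S48Skeleton
open scoped MatrixGroups

/-- `Aut(ℂ)` acts on the `q`-expansions of `S₁(Γ₁(N))` (helper20). -/
theorem hasConj (N : ℕ) [NeZero N] : HasConj N :=
  fun σ F => Fermat.Agent.DS.W2Z.cuspForm_conj_Gamma1 N 1 σ F

/-- The `q`-coefficients of a form satisfying the frozen hypotheses lie in a finitely generated
`ℤ`-module (helper2's DS0 + helper25's multiplier argument). -/
theorem hasFGEigen : HasFGEigen := fun N _ ε f h =>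
  exists_fg_coeffs_weight_one ε (Fermat.Agent.DS.Neben.eps_neg_one ε f h.one h.rel) f
    (fun γ hγ => Fermat.Agent.DS.Neben.nebentypus ε f h.rel γ hγ)

/-- **DS1a**, unconditionally. -/
theorem ds1a_closed : DS1a := ds1a fun N _ => hasConj N

/-- **DS1b**, unconditionally. -/
theorem ds1b_closed : DS1b := ds1b (fun N _ => hasConj N) hasFGEigen

variable {N : ℕ} [NeZero N] {ε : DirichletCharacter ℂ N} {f : CuspForm (Gamma1 N) 1}

/-- The `a_p` of a form satisfying the frozen hypotheses are algebraic integers. -/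
theorem IsEigen.isIntegral_closed (h : IsEigen N ε f) {p : ℕ} (hp : p.Prime) (hpN : ¬ p ∣ N) :
    IsIntegral ℤ (qCoeff f p) :=
  h.isIntegral (hasFGEigen N ε f h) hp hpN

/-- The field of coefficients is a number field. -/
theorem IsEigen.finiteDimensional_coeffField_closed (h : IsEigen N ε f) :
    FiniteDimensional ℚ (coeffField ε f) :=
  h.finiteDimensional_coeffField (hasConj N)

/-- **The export for DS4-ALG**: a normalised eigenform `g` with the same `a_p`, all of whose
`q`-coefficients lie in the number field `K = coeffField ε f` and have a common denominator. -/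
theorem IsEigen.exists_rational_closed (h : IsEigen N ε f) :
    ∃ g : CuspForm (Gamma1 N) 1, IsEigen N ε g ∧ (∀ n, qCoeff g n ∈ coeffField ε f) ∧
      (∀ p : ℕ, p.Prime → ¬ p ∣ N → qCoeff g p = qCoeff f p) ∧
      ∃ D : ℤ, D ≠ 0 ∧ ∀ n, IsIntegral ℤ ((D : ℂ) * qCoeff g n) := by
  obtain ⟨g, hg, hgK, hgp⟩ := h.exists_rational (hasConj N) (coeffField ε f)
    (fun p hp hpN => qCoeff_mem_coeffField ε f hp hpN) (char_mem_coeffField ε f)
  refine ⟨g, hg, hgK, hgp, ?_⟩
  have := h.finiteDimensional_coeffField_closed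
  have halg : Algebra.IsAlgebraic ℚ (coeffField ε f) := Algebra.IsAlgebraic.of_finite ℚ _
  refine exists_common_denominator_qCoeff g (hasFGEigen N ε g hg) fun n => ?_
  have h1 : IsAlgebraic ℚ (⟨qCoeff g n, hgK n⟩ : coeffField ε f) := halg.isAlgebraic _
  exact h1.algebraMap

end Fermat.Agent.DS.DS1
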